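import Mathlib
import Fermat.Agent.Red.Main

/-!
# Program J (J6'): the reduction homomorphism on `Pic⁰` attached to a `RedSetup`

Generic in the valued function field: for a `Red.RedSetup S` (valued function field `F/K` with
residue function field `Ft/k`, place reduction `S.r` with conservation of principal divisors)

* `mapDomain_mem_principal` : `r_*` maps principal divisors to principal divisors (every nonzero
  function is a constant times a unit of `S.O`, and constants have trivial divisor);
* `redDiv`, `redDegZero`, `redPic0 S : Pic0 K F →+ Pic0 k Ft` with `redPic0_mk`;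
* `eq_zero_of_redPic0_eq_zero` : the main theorem of L-RED (`Red.mainStatement`) in `Pic⁰` form:
  a class killed by `m` (with `(m : k) ≠ 0`) with trivial reduction is trivial;
* `eq_zero_of_torsion_of_redPic0_eq_zero` : in residue characteristic zero, `redPic0 S` is injective
  on the whole torsion subgroup.
-/

set_option autoImplicit false

namespace Fermat.Agent.Jac.Spec

open AlgebraicCurve Fermat.Agent

variable {K F k Ft : Type*} [Field K] [Field F] [Algebra K F] [Field k] [Field Ft]
  [Algebra k Ft] {A : ValuationSubring K} {π : A →+* k}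
  (S : Red.RedSetup (F := F) (Ft := Ft) A π)

/-- `r_*` maps principal divisors to principal divisors. -/
theorem mapDomain_mem_principal {D : Divisor K F}
    (hD : D ∈ Divisor.principal (K := K) (F := F)) :
    Finsupp.mapDomain S.r D ∈ Divisor.principal (K := k) (F := Ft) := by
  obtain ⟨f, hf, hfD⟩ := hD
  obtain ⟨c, hc, h, hres⟩ := Red.NormalForm.exists_smul_mem S hf
  refine ⟨S.res ⟨c • f, h⟩, hres, fun Q => ?_⟩
  exact S.conservation ⟨c • f, h⟩ hres D
    (fun P => by rw [hfD P]; exact (Red.NormalForm.ord_const_smul P hc f).symm) Q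

/-- `r_*` preserves degrees. -/
theorem degree_mapDomain (D : Divisor K F) :
    Divisor.degree (Finsupp.mapDomain S.r D) = Divisor.degree D := by
  induction D using Finsupp.induction with
  | zero => simp
  | single_add P n D _ _ ih =>
    rw [Finsupp.mapDomain_add, map_add, map_add, ih, Finsupp.mapDomain_single,
      Divisor.degree_single, Divisor.degree_single, S.deg_r]

/-- `r_*` on divisors. -/
noncomputable def redDiv : Divisor K F →+ Divisor k Ft :=
  Finsupp.mapDomain.addMonoidHom S.r

@[simp] theorem redDiv_apply (D : Divisor K F) : redDiv S D = Finsupp.mapDomain S.r D := rfl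

theorem redDiv_single (P : Place K F) (n : ℤ) :
    redDiv S (Finsupp.single P n) = Finsupp.single (S.r P) n :=
  Finsupp.mapDomain_single

/-- `r_*` on degree-zero divisors. -/
noncomputable def redDegZero :
    Divisor.degZero (K := K) (F := F) →+ Divisor.degZero (K := k) (F := Ft) :=
  ((redDiv S).domRestrict _).codRestrict _ fun D => by
    have hD : Divisor.degree (D : Divisor K F) = 0 := D.2
    show Divisor.degree (Finsupp.mapDomain S.r (D : Divisor K F)) = 0
    rw [degree_mapDomain, hD]

@[simp] theorem coe_redDegZero (D : Divisor.degZero (K := K) (F := F)) :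
    (redDegZero S D : Divisor k Ft) = Finsupp.mapDomain S.r (D : Divisor K F) := rfl

/-- **The reduction homomorphism `Pic⁰(F/K) → Pic⁰(Ft/k)` of a `RedSetup`.** -/
noncomputable def redPic0 : Pic0 K F →+ Pic0 k Ft :=
  QuotientAddGroup.map _ _ (redDegZero S) (by
    rintro ⟨D, hD0⟩ hD
    simp only [AddSubgroup.mem_addSubgroupOf] at hD ⊢
    exact mapDomain_mem_principal S hD)

theorem redPic0_mk (D : Divisor.degZero (K := K) (F := F)) :
    redPic0 S (Pic0.mk D) = Pic0.mk (redDegZero S D) := rfl

theorem mk_eq_zero_iff (D : Divisor.degZero (K := K) (F := F)) :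
    Pic0.mk D = 0 ↔ (D : Divisor K F) ∈ Divisor.principal (K := K) (F := F) := by
  rw [Pic0.mk, QuotientAddGroup.eq_zero_iff, AddSubgroup.mem_addSubgroupOf]

/-- **`Red.mainStatement` in `Pic⁰` form.** -/
theorem eq_zero_of_redPic0_eq_zero (hK : IsAlgClosed K) (hk : IsAlgClosed k)
    (hA : Red.IsRankOne A) (hF : Red.RiemannPkg K F) (hFt : Red.RiemannPkg k Ft)
    (hg : genusFF k Ft = genusFF K F) (m : ℕ) (hm : (m : k) ≠ 0) (x : Pic0 K F)
    (hmx : m • x = 0) (hx : redPic0 S x = 0) : x = 0 := by
  obtain ⟨D, rfl⟩ := Pic0.mk_surjective x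
  have hNT : Red.NoTorsionInKernel S := Red.mainStatement S hK hk hA hF hFt hg
  have h1 : m • (D : Divisor K F) ∈ Divisor.principal (K := K) (F := F) := by
    have : Pic0.mk (m • D) = 0 := hmx
    rw [mk_eq_zero_iff] at this
    simpa using this
  have h2 : Finsupp.mapDomain S.r (D : Divisor K F) ∈
      Divisor.principal (K := k) (F := Ft) := by
    rw [redPic0_mk, mk_eq_zero_iff] at hx
    exact hx
  rw [mk_eq_zero_iff]
  exact hNT m hm D D.2 h1 h2

/-- In residue characteristic zero the reduction is injective on torsion. -/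
theorem eq_zero_of_torsion_of_redPic0_eq_zero [CharZero k] (hK : IsAlgClosed K)
    (hk : IsAlgClosed k) (hA : Red.IsRankOne A) (hF : Red.RiemannPkg K F)
    (hFt : Red.RiemannPkg k Ft) (hg : genusFF k Ft = genusFF K F) (x : Pic0 K F)
    (htors : ∃ m : ℕ, m ≠ 0 ∧ m • x = 0) (hx : redPic0 S x = 0) : x = 0 := by
  obtain ⟨m, hm, hmx⟩ := htors
  exact eq_zero_of_redPic0_eq_zero S hK hk hA hF hFt hg m (Nat.cast_ne_zero.mpr hm) x hmx hx

end Fermat.Agent.Jac.Spec
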