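import Mathlib
import Fermat.Agent.Jac.Spec.RedPic0
import Fermat.Agent.Jac.DictC.RiemannPkgC
import Fermat.Agent.Jac.DictC.GenusFF
import Fermat.Agent.Val.RiemannPkgBar
import Fermat.Prelude.Def_ModularCurve_HeckeModule

/-!
# Program J (J6'): assembly of the specialization `Pic⁰(X₀(N)/ℂ) → J₀(N)(ℚ̄)`

`exists_specialization_of` : from

* (J6a) a rank-one valuation subring `A` of `ℂ` with a map `π : A →+* ℚ̄`
  (`Jac.Spec.exists_valuationSubring_complex`),
* (J6b) a `Red.RedSetup S` for `(ℂ, A, π, F_N ⊗ ℂ, F̄_N)` (constant reduction of the function field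
  of `X₀(N)` over `ℂ` along `A`),
* (J6d) Hecke equivariance of `redPic0 S`,

and the landed inputs `DictC.riemannPkg_C`, `Val.riemannPkg_bar`, `DictC.genusFF_C_eq_genusFF_bar`,
`Red.mainStatement`, one gets an additive map `red : Pic⁰(F_N ⊗ ℂ) →+ J₀(N)` which is injective on
torsion and Hecke equivariant.
-/

set_option autoImplicit false

namespace Fermat.Agent.Jac.Spec

open AlgebraicCurve ModularCurve Fermat.Agent

set_option synthInstance.maxHeartbeats 400000

/-- The statement of the specialization node (J6') of Program J. -/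
def SpecializationStatement (N : ℕ) [NeZero N] : Prop :=
  ∃ red : Pic0 ℂ (laurentBaseChange ℂ (modularFunctionFieldFull N)) →+ JZero N,
    (∀ x, (∃ m : ℕ, m ≠ 0 ∧ m • x = 0) → red x = 0 → x = 0) ∧
      ∀ (ℓ : Nat.Primes) (x : Pic0 ℂ (laurentBaseChange ℂ (modularFunctionFieldFull N))),
        red ((haveI : NeZero (ℓ : ℕ) := ⟨ℓ.2.ne_zero⟩; heckeOperatorAlong ℂ N ℓ) x) =
          heckeOperatorBar N ℓ (red x)

/-- **Assembly of (J6').** -/
theorem exists_specialization_of (N : ℕ) [NeZero N] {A : ValuationSubring ℂ}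
    {π : A →+* AlgebraicClosure ℚ} (hA : Red.IsRankOne A)
    (S : Red.RedSetup (K := ℂ) (F := laurentBaseChange ℂ (modularFunctionFieldFull N))
      (k := AlgebraicClosure ℚ) (Ft := modularFunctionFieldBar N) A π)
    (hHecke : ∀ (ℓ : Nat.Primes) (x : Pic0 ℂ (laurentBaseChange ℂ (modularFunctionFieldFull N))),
      redPic0 S ((haveI : NeZero (ℓ : ℕ) := ⟨ℓ.2.ne_zero⟩; heckeOperatorAlong ℂ N ℓ) x) =
        heckeOperatorBar N ℓ (redPic0 S x)) :
    SpecializationStatement N := by
  refine ⟨redPic0 S, fun x hx hred => ?_, hHecke⟩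
  exact eq_zero_of_torsion_of_redPic0_eq_zero S inferInstance inferInstance hA
    (DictC.riemannPkg_C N) (Val.riemannPkg_bar N) (DictC.genusFF_C_eq_genusFF_bar N).symm x hx hred

end Fermat.Agent.Jac.Spec
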