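import Mathlib
import Fermat.Prelude.Def_ModularCurve_X0ModL
import Fermat.Prelude.Def_ModularCurve_ArithmeticGalois

/-!
# `modularFunctionFieldFullC L N = laurentBaseChange L (modularFunctionFieldFull N)`

The two Prelude models of the function field of `X₀(N)` over a field `L ⊇ ℚ` inside `L((q))`
coincide: `L(j(q^d) : d ∣ N)` (generators with coefficients in `L`) and the compositum of `L` with
the coefficientwise image of `ℚ(j(q^d) : d ∣ N)`.
-/

set_option autoImplicit false

namespace Fermat.Agent.Jac.Spec

open ModularCurve IntermediateField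

variable (L : Type*) [Field L] [Algebra ℚ L] (N : ℕ) [NeZero N]

theorem coeffEmb_qExpand_jq (d : ℕ) [NeZero d] :
    coeffEmb L (qExpand ℚ d jq) = qExpand L d (jqModC L) := by
  have h : qExpand ℚ d jq = jqNModC ℚ d := rfl
  rw [h, coeffEmb, coeffMap_jqNModC]
  rfl

omit [NeZero N] in
theorem coeffEmb_mem_fullC {x : LaurentSeries ℚ} (hx : x ∈ modularFunctionFieldFull N) :
    coeffEmb L x ∈ modularFunctionFieldFullC L N := by
  let T : IntermediateField ℚ (LaurentSeries ℚ) :=
    ((modularFunctionFieldFullC L N).toSubfield.comap (coeffEmb L)).toIntermediateField fun r => by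
      rw [eq_ratCast]; exact SubfieldClass.ratCast_mem _ r
  have hle : modularFunctionFieldFull N ≤ T := by
    rw [modularFunctionFieldFull, IntermediateField.adjoin_le_iff]
    rintro y ⟨d, hd, hdN, rfl⟩
    have := hd
    show coeffEmb L (qExpand ℚ d jq) ∈ modularFunctionFieldFullC L N
    rw [coeffEmb_qExpand_jq]
    exact jqModCd_mem_full L N hdN
  exact hle hx

omit [NeZero N] in
/-- The two Prelude models of the function field of `X₀(N)` over `L` coincide. -/
theorem modularFunctionFieldFullC_eq_laurentBaseChange :
    modularFunctionFieldFullC L N = laurentBaseChange L (modularFunctionFieldFull N) := by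
  apply le_antisymm
  · rw [modularFunctionFieldFullC, IntermediateField.adjoin_le_iff]
    rintro y ⟨d, hd, hdN, rfl⟩
    have := hd
    rw [← coeffEmb_qExpand_jq]
    exact coeffEmb_mem_laurentBaseChange L (jqd_mem_full N hdN)
  · rw [laurentBaseChange, IntermediateField.adjoin_le_iff]
    rintro _ ⟨x, hx, rfl⟩
    exact coeffEmb_mem_fullC L N hx

omit [NeZero N] in
theorem mem_fullC_iff_mem_laurentBaseChange {x : LaurentSeries L} :
    x ∈ modularFunctionFieldFullC L N ↔ x ∈ laurentBaseChange L (modularFunctionFieldFull N) := by
  rw [modularFunctionFieldFullC_eq_laurentBaseChange]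

end Fermat.Agent.Jac.Spec
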