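import Mathlib
import Fermat.Agent.X0.ModDeg
import Fermat.Agent.X0.Psi
import Fermat.Agent.Igusa.TowerCor
import Fermat.Agent.Val.ModularOrtho
import Fermat.Agent.Jac.Spec.FullCEq

/-!
# Program J (J6b): `ψ(N)` monomials in the `j(q^d)` independent over `ℚ̄[j]`

* `adjoin_genSetB_eq_top` : `F̄_N = ℚ̄(j)(j(q^d) : d ∣ N)`;
* `exists_monomials_bar` : `ψ(N)` monomials in the `j(q^d)` linearly independent over `ℚ̄(j)`
  (inside `Fb N`), from `[F̄_N : ℚ̄(j)] = ψ(N)` (`X0.jBar_isSepVar`);
* `exists_orthoMonomials_bar` : for ANY valuation subring `A` of ANY field `L` and ANY ring hom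
  `π : A →+* ℚ̄`, `ψ(N)` monomials `m i ∈ A((q))` in the `j(q^d)` whose reductions satisfy the
  polynomial independence (H4) of `Val.OrthoData` — the equicharacteristic-zero analogue of
  `Val.exists_orthoMonomials`.
-/

set_option autoImplicit false

namespace Fermat.Agent.Jac.Spec

open ModularCurve IntermediateField Fermat.Agent.X0 Polynomial Fermat.Agent

variable (N : ℕ) [NeZero N]

omit [NeZero N] in
/-- `F̄_N` is generated over `ℚ̄(j)` by the `j(q^d)`, `d ∣ N`. -/
theorem adjoin_genSetB_eq_top :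
    IntermediateField.adjoin Kb⟮jBar N⟯ (genSetB N) = ⊤ := by
  rw [eq_top_iff]
  intro f _
  obtain ⟨g, h, -, rfl⟩ := exists_Rb_div N f
  have hle : Rb N ≤
      ((IntermediateField.adjoin Kb⟮jBar N⟯ (genSetB N)).restrictScalars Kb).toSubalgebra :=
    Algebra.adjoin_le fun x hx => IntermediateField.subset_adjoin Kb⟮jBar N⟯ (genSetB N) hx
  have hR : ∀ r : Rb N, (r : Fb N) ∈ IntermediateField.adjoin Kb⟮jBar N⟯ (genSetB N) :=
    fun r => hle r.2
  exact div_mem (hR g) (hR h)

/-- `ψ(N)` monomials in the `j(q^d)` linearly independent over `ℚ̄(j)`. -/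
theorem exists_monomials_bar :
    ∃ m : Fin (dedekindPsi N) → Fb N, (∀ i, m i ∈ Submonoid.closure (genSetB N)) ∧
      LinearIndependent Kb⟮jBar N⟯ m := by
  have hsep := jBar_isSepVar N
  have hfin := hsep.finite
  have htop := adjoin_genSetB_eq_top N
  refine Igusa.exists_linearIndependent_monomials (K := Kb⟮jBar N⟯) (genSetB N) ?_
  rw [htop, IntermediateField.finrank_top', hsep.finrank_eq]

omit [NeZero N] in
theorem coe_jBar_eq : ((jBar N : Fb N) : LaurentSeries Kb) = jqModC Kb := by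
  rw [coe_jBar, coeffEmb, ← jqModC_rat, coeffMap_jqModC]

omit [NeZero N] in
theorem coe_jBarD_eq (d : ℕ) [NeZero d] (hd : d ∣ N) :
    ((jBarD N d hd : Fb N) : LaurentSeries Kb) = jqNModC Kb d := by
  rw [coe_jBarD, coeffEmb_qExpand_jq]
  rfl

omit [NeZero N] in
/-- The series of a monomial in the `j(q^d)`. -/
theorem coe_mem_closure {y : Fb N} (hy : y ∈ Submonoid.closure (genSetB N)) :
    (y : LaurentSeries Kb) ∈ Submonoid.closure
      {x : LaurentSeries Kb | ∃ d : ℕ, ∃ _ : NeZero d, d ∣ N ∧ x = jqNModC Kb d} := by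
  induction hy using Submonoid.closure_induction with
  | mem x hx =>
    obtain ⟨d, hd, hdN, rfl⟩ := hx
    exact Submonoid.subset_closure ⟨d, hd, hdN, coe_jBarD_eq N d hdN⟩
  | one => exact one_mem _
  | mul x y _ _ hx hy => exact mul_mem hx hy

/-- **(H4) in equicharacteristic zero.** For any valuation subring `A` of any field `L` and any ring
hom `π : A →+* ℚ̄` there are `ψ(N)` monomials `m i` in the `j(q^d)`, `d ∣ N`, in `A((q))` such that
a relation `∑ cᵢ(j) m̃ᵢ = 0` with polynomial coefficients `cᵢ ∈ ℚ̄[X]` forces all `cᵢ = 0`. -/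
theorem exists_orthoMonomials_bar {L : Type*} [Field L] (A : ValuationSubring L)
    (π : A →+* Kb) :
    ∃ m : Fin (dedekindPsi N) → LaurentSeries A,
      (∀ i, m i ∈ Submonoid.closure (Val.jGensA A N)) ∧
      ∀ c : Fin (dedekindPsi N) → Kb[X],
        ∑ i, aeval (jqModC Kb) (c i) * coeffMap π (m i) = 0 → ∀ i, c i = 0 := by
  obtain ⟨m', hm', hli⟩ := exists_monomials_bar N
  have hS : {x : LaurentSeries Kb | ∃ d : ℕ, ∃ _ : NeZero d, d ∣ N ∧ x = jqNModC Kb d} =
      (coeffMap π) '' Val.jGensA A N := by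
    ext x
    constructor
    · rintro ⟨d, hd, hdN, rfl⟩
      exact ⟨jqNModC A d, ⟨d, hd, hdN, rfl⟩, coeffMap_jqNModC π d⟩
    · rintro ⟨y, ⟨d, hd, hdN, rfl⟩, rfl⟩
      exact ⟨d, hd, hdN, coeffMap_jqNModC π d⟩
  have hcl : ∀ i, ∃ y ∈ Submonoid.closure (Val.jGensA A N),
      coeffMap π y = ((m' i : Fb N) : LaurentSeries Kb) := by
    intro i
    have := coe_mem_closure N (hm' i)
    rw [hS, ← MonoidHom.map_mclosure] at this
    exact this
  choose m hm hπm using hcl
  refine ⟨m, hm, fun c hc i => ?_⟩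
  rw [Fintype.linearIndependent_iff] at hli
  have hmem : ∀ i, aeval (jBar N) (c i) ∈ Kb⟮jBar N⟯ := fun i => by
    have hj : jBar N ∈ Kb⟮jBar N⟯ := IntermediateField.mem_adjoin_simple_self Kb (jBar N)
    rw [aeval_def, eval₂_eq_sum_range]
    refine sum_mem fun n _ => mul_mem (IntermediateField.algebraMap_mem _ _) (pow_mem hj n)
  have hcoe : ∀ i, ((aeval (jBar N) (c i) : Fb N) : LaurentSeries Kb) =
      aeval (jqModC Kb) (c i) := fun i => by
    rw [← coe_jBar_eq N]
    exact (Polynomial.aeval_algHom_apply (modularFunctionFieldBar N).val (jBar N) (c i)).symm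
  have h1 := hli (fun i => ⟨aeval (jBar N) (c i), hmem i⟩) (by
    apply Subtype.ext
    refine Eq.trans ?_ (hc.trans (ZeroMemClass.coe_zero _).symm)
    rw [show (((∑ i, (⟨aeval (jBar N) (c i), hmem i⟩ : Kb⟮jBar N⟯) • m' i : Fb N)) :
      LaurentSeries Kb) = (modularFunctionFieldBar N).val
        (∑ i, (⟨aeval (jBar N) (c i), hmem i⟩ : Kb⟮jBar N⟯) • m' i) from rfl, map_sum]
    refine Finset.sum_congr rfl fun i _ => ?_
    rw [IntermediateField.smul_def, smul_eq_mul, map_mul, hπm]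
    show ((aeval (jBar N) (c i) : Fb N) : LaurentSeries Kb) * _ = _
    rw [hcoe]
    rfl) i
  have h2 : aeval (jBar N) (c i) = 0 := congrArg Subtype.val h1
  exact (transcendental_iff_injective.mp (jBar_isSepVar N).transcendental) (by rw [h2, map_zero])

end Fermat.Agent.Jac.Spec
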