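import Mathlib
import Fermat.Agent.Jac.Spec.MonomialsBar
import Fermat.Agent.Val.OrthoBar
import Fermat.Agent.Val.OrthoRedSetup
import Fermat.Agent.Val.DeuringMain
import Fermat.Agent.Val.RiemannPkgBar
import Fermat.Agent.Jac.DictC.ModDeg
import Fermat.Agent.Jac.DictC.RiemannPkgC
import Fermat.Agent.Jac.DictC.GenusFF

/-!
# Program J (J6b): the constant reduction of `F_N ⊗ ℂ` along a valuation ring of `ℂ` with residue
field `ℚ̄`

For ANY valuation subring `A` of `ℂ` and ring hom `π : A →+* ℚ̄`:

* `exists_orthoDataC` : orthonormal data `Val.OrthoData A π (F_N ⊗ ℂ) F̄_N ψ(N)` (the monomials of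
  `exists_orthoMonomials_bar`, degree bound from `DictC.jBar_isSepVar`);

and if `π` is surjective with kernel the maximal ideal:

* `exists_redSetupC` : a `Red.RedSetup` for `(ℂ, A, π, F_N ⊗ ℂ, F̄_N)` whose underlying constant
  reduction is `D.constRed` (Gauss valuation ring, coefficientwise residue map), via
  `Val.ConstRed.exists_redSetup`, `DictC.riemannPkg_C`, `Val.riemannPkg_bar` and
  `DictC.genusFF_C_eq_genusFF_bar`.
-/

set_option autoImplicit false

namespace Fermat.Agent.Jac.Spec

open ModularCurve IntermediateField Fermat.Agent.X0 Polynomial Fermat.Agent AlgebraicCurve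

set_option synthInstance.maxHeartbeats 400000

variable (N : ℕ) [NeZero N]

/-- `j` with coefficients in `A`, as an element of `F_N ⊗ ℂ`, is `DictC.jBar N`. -/
theorem aIota_jqModC_eq_jBarC (A : ValuationSubring ℂ) :
    (⟨Val.aIota A (jqModC A), Val.aIota_jqModC_mem A N⟩ :
      laurentBaseChange ℂ (modularFunctionFieldFull N)) = DictC.jBar N := by
  apply Subtype.ext
  show Val.aIota A (jqModC A) = coeffEmb ℂ jq
  exact Val.coeffMap_subtype_jqModC A

/-- **Orthonormal data for `F_N ⊗ ℂ`** along any valuation subring of `ℂ` with a ring hom to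
`ℚ̄`, with residue function field `F̄_N`. -/
theorem exists_orthoDataC (A : ValuationSubring ℂ) (π : A →+* Kb) :
    ∃ D : Val.OrthoData A π (laurentBaseChange ℂ (modularFunctionFieldFull N))
        (modularFunctionFieldBar N) (dedekindPsi N),
      D.x = jqModC A ∧ ∀ i, D.m i ∈ Submonoid.closure (Val.jGensA A N) := by
  obtain ⟨m, hm, hind⟩ := exists_orthoMonomials_bar N A π
  have hsep := DictC.jBar_isSepVar N
  have hx := aIota_jqModC_eq_jBarC N A
  have hfin : FiniteDimensional (IntermediateField.adjoin ℂ
      {(⟨Val.aIota A (jqModC A), Val.aIota_jqModC_mem A N⟩ :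
        laurentBaseChange ℂ (modularFunctionFieldFull N))})
      (laurentBaseChange ℂ (modularFunctionFieldFull N)) := by
    rw [hx]
    exact hsep.finite
  have hrank : Module.finrank (IntermediateField.adjoin ℂ
      {(⟨Val.aIota A (jqModC A), Val.aIota_jqModC_mem A N⟩ :
        laurentBaseChange ℂ (modularFunctionFieldFull N))})
      (laurentBaseChange ℂ (modularFunctionFieldFull N)) ≤ dedekindPsi N := by
    rw [hx]
    exact hsep.finrank_eq.le
  obtain ⟨D, hDx, hDm⟩ := Val.exists_orthoDataOfMonomials A π N m hm hind hfin hrank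
  have key : ∀ Ft' : IntermediateField Kb (LaurentSeries Kb),
      modularFunctionFieldFullC Kb N = Ft' →
      ∃ D' : Val.OrthoData A π (laurentBaseChange ℂ (modularFunctionFieldFull N)) Ft'
          (dedekindPsi N), D'.x = jqModC A ∧ ∀ i, D'.m i ∈ Submonoid.closure (Val.jGensA A N) := by
    rintro _ rfl
    exact ⟨D, hDx, fun i => by rw [hDm]; exact hm i⟩
  exact key _ (modularFunctionFieldFullC_eq_laurentBaseChange Kb N)

/-- **(J6b)** The constant reduction of `F_N ⊗ ℂ` along `(A, π)` extends to a `Red.RedSetup` with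
residue function field `F̄_N`. -/
theorem exists_redSetupC (A : ValuationSubring ℂ) (π : A →+* Kb)
    (hπ : ∀ a : A, a ∈ IsLocalRing.maximalIdeal A → π a = 0) (hπs : Function.Surjective π) :
    ∃ (D : Val.OrthoData A π (laurentBaseChange ℂ (modularFunctionFieldFull N))
        (modularFunctionFieldBar N) (dedekindPsi N))
      (R : Red.RedSetup (K := ℂ) (F := laurentBaseChange ℂ (modularFunctionFieldFull N))
        (k := Kb) (Ft := modularFunctionFieldBar N) A π),
      D.x = jqModC A ∧ (∀ i, D.m i ∈ Submonoid.closure (Val.jGensA A N)) ∧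
        R.toConstRed = D.constRed hπ hπs := by
  obtain ⟨D, hDx, hDm⟩ := exists_orthoDataC N A π
  obtain ⟨R, hR⟩ := Val.ConstRed.exists_redSetup (D.constRed hπ hπs) hπs
    (DictC.riemannPkg_C N) (Val.riemannPkg_bar N) (DictC.genusFF_C_eq_genusFF_bar N).symm
  exact ⟨D, R, hDx, hDm, hR⟩

end Fermat.Agent.Jac.Spec
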