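/-
Program J, node (J6) descent ℂ → ℚ̄ by specialization, sub-node (Sp1) (helper5).

`ℂ` carries a rank-one valuation subring `A` with residue field `ℚ̄`:
`exists_valuationSubring_complex : ∃ (A : ValuationSubring ℂ) (π : A →+* AlgebraicClosure ℚ),
   Function.Surjective π ∧ (∀ a, π a = 0 ↔ a ∈ maximalIdeal A) ∧ Red.IsRankOne A`.

Construction: `Ω := AlgebraicClosure (LaurentSeries ℚ̄)` has the cardinality of the continuum, so
`ℂ ≃+* Ω`; a valuation subring `B` of `Ω` dominating the power series ring (Chevalley) is of rank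
one (value group torsion over `ℤ`) and its residue field is algebraic over `ℚ̄`, hence equal to
`ℚ̄`; pull back along the ring isomorphism.
-/
import Mathlib
import Fermat.Agent.Red.Setup

set_option autoImplicit false

namespace Fermat.Agent.Jac.Spec

open Polynomial Cardinal
open scoped WithZero

section Generic

variable {K0 Ω : Type*} [Field K0] [Field Ω] [Algebra K0 Ω] [Algebra.IsAlgebraic K0 Ω]
variable {Γ : Type*} [LinearOrderedCommGroupWithZero Γ]

theorem pow_sub_eq_div_of_mul_pow_eq {a b x : Γ} (hx : x ≠ 0) (hb : b ≠ 0) {i j : ℕ} (hij : i < j)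
    (h : a * x ^ i = b * x ^ j) : x ^ (j - i) = a / b := by
  have hj : x ^ j = x ^ i * x ^ (j - i) := by
    rw [← pow_add, Nat.add_sub_cancel' hij.le]
  rw [hj, ← mul_assoc, mul_comm b, mul_assoc] at h
  have h2 : a = b * x ^ (j - i) := mul_left_cancel₀ (pow_ne_zero i hx) (by rw [mul_comm _ a]; exact h)
  rw [eq_div_iff hb, h2, mul_comm]

/-- The value group of an algebraic extension is torsion over the value group of the base. -/
theorem exists_pow_eq_valuation (v : Valuation Ω Γ) (u : Ω) (hu : u ≠ 0) :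
    ∃ n : ℕ, 0 < n ∧ ∃ c : K0, c ≠ 0 ∧ v u ^ n = v (algebraMap K0 Ω c) := by
  classical
  obtain ⟨p, hp0, hp⟩ := Algebra.IsAlgebraic.isAlgebraic (R := K0) u
  set f : ℕ → Ω := fun i => algebraMap K0 Ω (p.coeff i) * u ^ i with hf
  have hsum : ∑ i ∈ p.support, f i = 0 := by
    rw [← hp, aeval_def, eval₂_eq_sum, Polynomial.sum_def]
  have hne : p.support.Nonempty := by
    rw [Finset.nonempty_iff_ne_empty, Ne, Polynomial.support_eq_empty]
    exact hp0
  obtain ⟨j, hj, hmax⟩ := Finset.exists_max_image p.support (fun i => v (f i)) hne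
  have hcoeff : ∀ i ∈ p.support, v (algebraMap K0 Ω (p.coeff i)) ≠ 0 := by
    intro i hi
    rw [Ne, Valuation.zero_iff, map_eq_zero]
    exact Polynomial.mem_support_iff.mp hi
  have hvu : v u ≠ 0 := by rwa [Ne, Valuation.zero_iff]
  have hfj : v (f j) ≠ 0 := by
    rw [hf]
    simp only [map_mul, map_pow]
    exact mul_ne_zero (hcoeff j hj) (pow_ne_zero j hvu)
  by_contra hcon
  push Not at hcon
  have hlt : ∀ i ∈ p.support \ {j}, v (f i) < v (f j) := by
    intro i hi
    rw [Finset.mem_sdiff, Finset.mem_singleton] at hi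
    refine lt_of_le_of_ne (hmax i hi.1) fun heq => ?_
    simp only [hf, map_mul, map_pow] at heq
    have hci := Polynomial.mem_support_iff.mp hi.1
    have hcj := Polynomial.mem_support_iff.mp hj
    rcases lt_or_gt_of_ne hi.2 with hij | hij
    · have := pow_sub_eq_div_of_mul_pow_eq hvu (hcoeff j hj) hij heq
      refine hcon (j - i) (by omega) (p.coeff i / p.coeff j) (div_ne_zero hci hcj) ?_
      rw [this, map_div₀, map_div₀]
    · have := pow_sub_eq_div_of_mul_pow_eq hvu (hcoeff i hi.1) hij heq.symm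
      refine hcon (i - j) (by omega) (p.coeff j / p.coeff i) (div_ne_zero hcj hci) ?_
      rw [this, map_div₀, map_div₀]
  have := Valuation.map_sum_eq_of_lt v hj hlt
  rw [hsum, map_zero] at this
  exact hfj this.symm

/-- A valuation subring of an algebraic extension `Ω/K0` whose restriction to `K0` is
archimedean is of rank one. -/
theorem isRankOne_of_isAlgebraic (B : ValuationSubring Ω)
    (h0 : ∀ c d : K0, d ≠ 0 → B.valuation (algebraMap K0 Ω c) < 1 →
      ∃ t : ℕ, B.valuation (algebraMap K0 Ω c) ^ t ≤ B.valuation (algebraMap K0 Ω d)) :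
    Red.IsRankOne B := by
  intro a ha b hb
  by_cases ha0 : a = 0
  · exact ⟨1, by rw [ha0, pow_one]; exact dvd_zero b⟩
  have hav : B.valuation (a : Ω) < 1 := by
    rw [← B.valuation_lt_one_iff, IsLocalRing.mem_maximalIdeal, mem_nonunits_iff]
    exact ha
  have haΩ : (a : Ω) ≠ 0 := fun h => ha0 (Subtype.ext h)
  have hbΩ : (b : Ω) ≠ 0 := fun h => hb (Subtype.ext h)
  obtain ⟨n, hn, c, hc, hcv⟩ := exists_pow_eq_valuation (K0 := K0) B.valuation (a : Ω) haΩ
  obtain ⟨m, hm, d, hd, hdv⟩ := exists_pow_eq_valuation (K0 := K0) B.valuation (b : Ω) hbΩ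
  have hc1 : B.valuation (algebraMap K0 Ω c) < 1 := by
    rw [← hcv]
    exact pow_lt_one₀ zero_le hav hn.ne'
  obtain ⟨t, ht⟩ := h0 c d hd hc1
  refine ⟨n * t, ?_⟩
  have hb1 : B.valuation (b : Ω) ≤ 1 := B.valuation_le_one b
  have hle : B.valuation ((a : Ω) ^ (n * t)) ≤ B.valuation (b : Ω) := by
    rw [map_pow, pow_mul, hcv]
    refine ht.trans ?_
    rw [← hdv]
    exact pow_le_of_le_one zero_le hb1 hm.ne'
  obtain ⟨z, hz⟩ := (B.valuation_le_iff _ _).mp hle
  refine ⟨z, Subtype.ext ?_⟩
  push_cast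
  rw [← hz, mul_comm]

end Generic

section Laurent

variable (k : Type*) [Field k]

/-- The valuation subring of power series inside Laurent series. -/
noncomputable abbrev laurentInt : ValuationSubring (LaurentSeries k) :=
  (Valued.v : Valuation (LaurentSeries k) ℤᵐ⁰).valuationSubring

variable {k}

theorem mem_laurentInt_iff (x : LaurentSeries k) : x ∈ laurentInt k ↔ Valued.v x ≤ (1 : ℤᵐ⁰) :=
  Valuation.mem_valuationSubring_iff _ x

theorem coeff_eq_zero_of_val_le_one {x : LaurentSeries k} (hx : Valued.v x ≤ (1 : ℤᵐ⁰)) {n : ℤ}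
    (hn : n < 0) : x.coeff n = 0 := by
  have h := (LaurentSeries.valuation_le_iff_coeff_lt_eq_zero k (D := 0) (f := x)).mp
    (by rw [neg_zero, WithZero.exp_zero]; exact hx)
  exact h n hn

/-- `x - C (x.coeff 0)` has valuation `< 1` for `x` a power series. -/
theorem val_sub_C_coeff_zero_lt_one {x : LaurentSeries k} (hx : Valued.v x ≤ (1 : ℤᵐ⁰)) :
    Valued.v (x - HahnSeries.C (x.coeff 0)) < (1 : ℤᵐ⁰) := by
  have h : Valued.v (x - HahnSeries.C (x.coeff 0)) ≤ WithZero.exp (-(1 : ℤ)) := by
    rw [LaurentSeries.valuation_le_iff_coeff_lt_eq_zero]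
    intro n hn
    rw [HahnSeries.coeff_sub]
    have hn' : n ≤ 0 := by omega
    rcases lt_or_eq_of_le hn' with h0 | h0
    · rw [coeff_eq_zero_of_val_le_one hx h0, HahnSeries.C_apply,
        HahnSeries.coeff_single_of_ne h0.ne, sub_zero]
    · rw [h0, HahnSeries.C_apply, HahnSeries.coeff_single_same, sub_self]
  refine lt_of_le_of_lt h ?_
  rw [← WithZero.exp_zero, WithZero.exp_lt_exp]
  norm_num

/-- The restriction to Laurent series is archimedean. -/
theorem exists_pow_div_val_le_one (c d : LaurentSeries k) (hd : d ≠ 0)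
    (hc : Valued.v c < (1 : ℤᵐ⁰)) : ∃ t : ℕ, Valued.v (c ^ t * d⁻¹) ≤ (1 : ℤᵐ⁰) := by
  by_cases hc0 : c = 0
  · exact ⟨1, by rw [hc0, pow_one, zero_mul, map_zero]; exact zero_le⟩
  have hx0 : (Valued.v c : ℤᵐ⁰) ≠ 0 := by rwa [Ne, Valuation.zero_iff]
  have hy0 : (Valued.v d : ℤᵐ⁰) ≠ 0 := by rwa [Ne, Valuation.zero_iff]
  have h1 : (1 : ℤᵐ⁰) < (Valued.v c)⁻¹ := (one_lt_inv₀ (zero_lt_iff.mpr hx0)).mpr hc
  obtain ⟨t, ht⟩ := MulArchimedean.arch ((Valued.v d : ℤᵐ⁰)⁻¹) h1
  refine ⟨t, ?_⟩
  rw [map_mul, map_pow, map_inv₀]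
  rw [inv_pow] at ht
  have h2 : (Valued.v c : ℤᵐ⁰) ^ t ≤ Valued.v d :=
    (inv_le_inv₀ (zero_lt_iff.mpr hy0) (zero_lt_iff.mpr (pow_ne_zero t hx0))).mp ht
  calc (Valued.v c : ℤᵐ⁰) ^ t * (Valued.v d)⁻¹ ≤ Valued.v d * (Valued.v d)⁻¹ :=
        mul_le_mul_left h2 _
    _ = 1 := mul_inv_cancel₀ hy0

end Laurent

section Extension

variable {k : Type*} [Field k] {Ω : Type*} [Field Ω] [Algebra (LaurentSeries k) Ω]

/-- A valuation subring of `Ω` dominating the ring of power series. -/
structure Dominates (B : ValuationSubring Ω) : Prop where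
  mem : ∀ x : LaurentSeries k, Valued.v x ≤ (1 : ℤᵐ⁰) → algebraMap (LaurentSeries k) Ω x ∈ B
  lt : ∀ x : LaurentSeries k, Valued.v x < (1 : ℤᵐ⁰) →
    B.valuation (algebraMap (LaurentSeries k) Ω x) < 1

theorem exists_dominates : ∃ B : ValuationSubring Ω, Dominates (k := k) B := by
  set A0 : ValuationSubring (LaurentSeries k) :=
    (Valued.v : Valuation (LaurentSeries k) ℤᵐ⁰).valuationSubring with hA0
  set f : A0 →+* Ω := (algebraMap (LaurentSeries k) Ω).comp A0.subtype with hf
  obtain ⟨B, h, hloc⟩ := IsLocalRing.exists_factor_valuationRing f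
  refine ⟨B, ⟨fun x hx => ?_, fun x hx => ?_⟩⟩
  · exact h ⟨x, (Valuation.mem_valuationSubring_iff _ x).mpr hx⟩
  · have hxA : x ∈ A0 := (Valuation.mem_valuationSubring_iff _ x).mpr hx.le
    have hnu : ¬ IsUnit (⟨x, hxA⟩ : A0) := by
      intro hu
      obtain ⟨b, hb⟩ := hu.exists_right_inv
      have hb' : x * (b : LaurentSeries k) = 1 := congrArg Subtype.val hb
      have h1 : Valued.v x * Valued.v (b : LaurentSeries k) = (1 : ℤᵐ⁰) := by
        rw [← map_mul, hb', map_one]
      have hbv : Valued.v (b : LaurentSeries k) ≤ (1 : ℤᵐ⁰) :=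
        (Valuation.mem_valuationSubring_iff _ _).mp b.2
      have : Valued.v x * Valued.v (b : LaurentSeries k) < (1 : ℤᵐ⁰) :=
        mul_lt_one_of_lt_of_le hx hbv
      exact this.ne h1
    have hnu' : ¬ IsUnit (f.codRestrict B.toSubring h ⟨x, hxA⟩) := fun hu =>
      hnu (hloc.map_nonunit _ hu)
    set y : B := ⟨algebraMap (LaurentSeries k) Ω x, h ⟨x, hxA⟩⟩ with hy
    have hyu : ¬ IsUnit y := hnu'
    rcases B.valuation_lt_one_or_eq_one y with h1 | h1
    · exact h1
    · exact absurd ((B.valuation_eq_one_iff y).mpr h1) hyu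

variable [Algebra.IsAlgebraic (LaurentSeries k) Ω]

theorem Dominates.isRankOne {B : ValuationSubring Ω} (hB : Dominates (k := k) B) :
    Red.IsRankOne B := by
  refine isRankOne_of_isAlgebraic (K0 := LaurentSeries k) B fun c d hd hc => ?_
  have hc1 : Valued.v c < (1 : ℤᵐ⁰) := by
    by_contra hcon
    rw [not_lt] at hcon
    have hc0 : c ≠ 0 := by
      rintro rfl
      rw [map_zero] at hcon
      exact not_le.mpr zero_lt_one hcon
    have hinv : Valued.v c⁻¹ ≤ (1 : ℤᵐ⁰) := by
      rw [map_inv₀]
      exact inv_le_one_of_one_le₀ hcon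
    have hmem := hB.mem _ hinv
    rw [map_inv₀, ← B.valuation_le_one_iff, map_inv₀] at hmem
    have hne : B.valuation (algebraMap (LaurentSeries k) Ω c) ≠ 0 := by
      rw [Ne, Valuation.zero_iff, map_eq_zero]
      exact hc0
    have : 1 ≤ B.valuation (algebraMap (LaurentSeries k) Ω c) :=
      (inv_le_one₀ (zero_lt_iff.mpr hne)).mp hmem
    exact not_lt.mpr this hc
  obtain ⟨t, ht⟩ := exists_pow_div_val_le_one c d hd hc1
  refine ⟨t, ?_⟩
  have hmem := hB.mem _ ht
  rw [map_mul, map_pow, map_inv₀, ← B.valuation_le_one_iff, map_mul, map_pow, map_inv₀] at hmem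
  have hne : B.valuation (algebraMap (LaurentSeries k) Ω d) ≠ 0 := by
    rw [Ne, Valuation.zero_iff, map_eq_zero]
    exact hd
  have h2 := (mul_inv_le_iff₀ (zero_lt_iff.mpr hne)).mp hmem
  rwa [one_mul] at h2


theorem val_C_le_one (a : k) : Valued.v (HahnSeries.C a : LaurentSeries k) ≤ (1 : ℤᵐ⁰) := by
  have h : Valued.v (HahnSeries.C a : LaurentSeries k) ≤ WithZero.exp (-(0 : ℤ)) := by
    rw [LaurentSeries.valuation_le_iff_coeff_lt_eq_zero]
    intro n hn
    rw [HahnSeries.C_apply, HahnSeries.coeff_single_of_ne hn.ne]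
  rwa [neg_zero, WithZero.exp_zero] at h

variable {B : ValuationSubring Ω}

/-- The constants, as a ring homomorphism into `B`. -/
noncomputable def Dominates.cst (hB : Dominates (k := k) B) : k →+* B :=
  ((algebraMap (LaurentSeries k) Ω).comp (HahnSeries.C : k →+* LaurentSeries k)).codRestrict B
    fun a => hB.mem _ (val_C_le_one a)

omit [Algebra.IsAlgebraic (LaurentSeries k) Ω] in
theorem Dominates.coe_cst (hB : Dominates (k := k) B) (a : k) :
    ((hB.cst a : B) : Ω) = algebraMap (LaurentSeries k) Ω (HahnSeries.C a) := rfl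

omit [Algebra.IsAlgebraic (LaurentSeries k) Ω] in
/-- The residue of a power series is the residue of its constant term. -/
theorem Dominates.residue_eq (hB : Dominates (k := k) B) (x : LaurentSeries k)
    (hx : Valued.v x ≤ (1 : ℤᵐ⁰)) :
    IsLocalRing.residue B ⟨algebraMap (LaurentSeries k) Ω x, hB.mem x hx⟩ =
      IsLocalRing.residue B (hB.cst (x.coeff 0)) := by
  rw [← sub_eq_zero, ← map_sub, IsLocalRing.residue_eq_zero_iff, B.valuation_lt_one_iff]
  have := hB.lt _ (val_sub_C_coeff_zero_lt_one hx)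
  rw [map_sub] at this
  exact this

/-- Every element of the residue field of `B` is algebraic over the constants. -/
theorem Dominates.isIntegral_residue (hB : Dominates (k := k) B) :
    ((IsLocalRing.residue B).comp hB.cst).IsIntegral := by
  classical
  intro abar
  obtain ⟨a, rfl⟩ := IsLocalRing.residue_surjective abar
  obtain ⟨p, hp0, hp⟩ := Algebra.IsAlgebraic.isAlgebraic (R := LaurentSeries k) (a : Ω)
  have hne : p.support.Nonempty := by
    rw [Finset.nonempty_iff_ne_empty, Ne, Polynomial.support_eq_empty]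
    exact hp0
  obtain ⟨j, hj, hmax⟩ := Finset.exists_max_image p.support
    (fun i => (Valued.v (p.coeff i) : ℤᵐ⁰)) hne
  have hcj : p.coeff j ≠ 0 := Polynomial.mem_support_iff.mp hj
  have hvj : (Valued.v (p.coeff j) : ℤᵐ⁰) ≠ 0 := by rwa [Ne, Valuation.zero_iff]
  -- normalised coefficients
  set q : ℕ → LaurentSeries k := fun i => p.coeff i / p.coeff j with hq
  have hqv : ∀ i, Valued.v (q i) ≤ (1 : ℤᵐ⁰) := by
    intro i
    by_cases hi : i ∈ p.support
    · rw [hq]
      simp only
      rw [map_div₀]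
      exact div_le_one_of_le₀ (hmax i hi) zero_le
    · rw [hq]
      simp only
      rw [Polynomial.notMem_support_iff.mp hi, zero_div, map_zero]
      exact zero_le
  set e : ℕ → B := fun i => ⟨algebraMap (LaurentSeries k) Ω (q i), hB.mem _ (hqv i)⟩ with he
  have hsum : ∑ i ∈ p.support, e i * a ^ i = 0 := by
    apply Subtype.ext
    push_cast
    have h1 : ∀ i ∈ p.support, ((e i : B) : Ω) * (a : Ω) ^ i =
        (algebraMap (LaurentSeries k) Ω (p.coeff j))⁻¹ *
          (algebraMap (LaurentSeries k) Ω (p.coeff i) * (a : Ω) ^ i) := by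
      intro i _
      rw [he]
      simp only [hq, map_div₀]
      ring
    rw [Finset.sum_congr rfl h1, ← Finset.mul_sum]
    have h2 : ∑ i ∈ p.support, algebraMap (LaurentSeries k) Ω (p.coeff i) * (a : Ω) ^ i = 0 := by
      rw [← hp, aeval_def, eval₂_eq_sum, Polynomial.sum_def]
    rw [h2, mul_zero]
  -- the reduced polynomial
  set Q : k[X] := ∑ i ∈ p.support, monomial i ((q i).coeff 0) with hQ
  have hQj : Q.coeff j = 1 := by
    rw [hQ, Polynomial.finsetSum_coeff]
    rw [Finset.sum_eq_single j]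
    · rw [Polynomial.coeff_monomial, if_pos rfl, hq]
      simp only
      rw [div_self hcj, HahnSeries.coeff_one, if_pos rfl]
    · intro i _ hij
      rw [Polynomial.coeff_monomial, if_neg hij]
    · intro h
      exact absurd hj h
  have hQ0 : Q ≠ 0 := by
    intro h
    rw [h, Polynomial.coeff_zero] at hQj
    exact zero_ne_one hQj
  have hroot : eval₂ ((IsLocalRing.residue B).comp hB.cst) (IsLocalRing.residue B a) Q = 0 := by
    rw [hQ, Polynomial.eval₂_finsetSum]
    have h1 : ∀ i ∈ p.support,
        eval₂ ((IsLocalRing.residue B).comp hB.cst) (IsLocalRing.residue B a)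
          (monomial i ((q i).coeff 0)) = IsLocalRing.residue B (e i * a ^ i) := by
      intro i _
      rw [eval₂_monomial, RingHom.comp_apply, ← hB.residue_eq (q i) (hqv i), map_mul, map_pow]
    rw [Finset.sum_congr rfl h1, ← map_sum, hsum, map_zero]
  refine ⟨Q * C Q.leadingCoeff⁻¹, Polynomial.monic_mul_leadingCoeff_inv hQ0, ?_⟩
  rw [eval₂_mul, hroot, zero_mul]

variable [IsAlgClosed k]

/-- The constants map bijectively onto the residue field of `B`. -/
theorem Dominates.bijective_residue_cst (hB : Dominates (k := k) B) :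
    Function.Bijective ((IsLocalRing.residue B).comp hB.cst) :=
  IsAlgClosed.ringHom_bijective_of_isIntegral _ hB.isIntegral_residue

/-- The residue map of `B` with values in the constants. -/
noncomputable def Dominates.resMap (hB : Dominates (k := k) B) : B →+* k :=
  ((RingEquiv.ofBijective _ hB.bijective_residue_cst).symm : IsLocalRing.ResidueField B →+* k).comp
    (IsLocalRing.residue B)

theorem Dominates.resMap_surjective (hB : Dominates (k := k) B) :
    Function.Surjective hB.resMap := by
  intro a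
  refine ⟨hB.cst a, ?_⟩
  rw [Dominates.resMap, RingHom.comp_apply]
  exact (RingEquiv.ofBijective _ hB.bijective_residue_cst).symm_apply_apply a

theorem Dominates.resMap_eq_zero_iff (hB : Dominates (k := k) B) (a : B) :
    hB.resMap a = 0 ↔ a ∈ IsLocalRing.maximalIdeal B := by
  rw [Dominates.resMap, RingHom.comp_apply, ← IsLocalRing.residue_eq_zero_iff]
  exact map_eq_zero_iff _ (RingEquiv.injective _)

end Extension

section Card

/-- The cardinality of `ℚ̄` is `ℵ₀`. -/
theorem mk_algebraicClosure_rat : #(AlgebraicClosure ℚ) = ℵ₀ := by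
  apply le_antisymm
  · have h := @Algebra.IsAlgebraic.cardinalMk_le_max ℚ _ _ (AlgebraicClosure ℚ) _ _
      (AlgebraicClosure.instAlgebra ℚ) _ (AlgebraicClosure.isAlgebraic ℚ)
    rwa [Cardinal.mkRat, max_self] at h
  · exact Cardinal.aleph0_le_mk _

/-- Laurent series over `ℚ̄` have the cardinality of the continuum. -/
theorem mk_laurentSeries : #(LaurentSeries (AlgebraicClosure ℚ)) = 𝔠 := by
  apply le_antisymm
  · have h := Cardinal.mk_le_of_injective
      (HahnSeries.coeff_injective (Γ := ℤ) (R := AlgebraicClosure ℚ))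
    refine h.trans ?_
    rw [← Cardinal.power_def, mk_algebraicClosure_rat, Cardinal.mk_int, aleph0_power_aleph0]
  · have hinj : Function.Injective
        (fun g : ℕ → AlgebraicClosure ℚ =>
          (HahnSeries.ofPowerSeries ℤ (AlgebraicClosure ℚ) (PowerSeries.mk g))) := by
      intro g g' h
      have h' := HahnSeries.ofPowerSeries_injective h
      funext n
      have := congrArg (PowerSeries.coeff n) h'
      simpa using this
    have h := Cardinal.mk_le_of_injective hinj
    rwa [← Cardinal.power_def, mk_algebraicClosure_rat, Cardinal.mk_nat, aleph0_power_aleph0] at h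

/-- The algebraic closure of `ℚ̄((s))` has the cardinality of the continuum. -/
theorem mk_algebraicClosure_laurentSeries :
    #(AlgebraicClosure (LaurentSeries (AlgebraicClosure ℚ))) = 𝔠 := by
  apply le_antisymm
  · have h := Algebra.IsAlgebraic.cardinalMk_le_max (LaurentSeries (AlgebraicClosure ℚ))
      (AlgebraicClosure (LaurentSeries (AlgebraicClosure ℚ)))
    rw [mk_laurentSeries, max_eq_left aleph0_le_continuum] at h
    exact h
  · have h := Cardinal.mk_le_of_injective
      (algebraMap (LaurentSeries (AlgebraicClosure ℚ))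
        (AlgebraicClosure (LaurentSeries (AlgebraicClosure ℚ)))).injective
    rwa [mk_laurentSeries] at h

/-- `ℂ` is (non-canonically) isomorphic to the algebraic closure of `ℚ̄((s))`. -/
theorem nonempty_ringEquiv_complex :
    Nonempty (ℂ ≃+* AlgebraicClosure (LaurentSeries (AlgebraicClosure ℚ))) := by
  have h0 : CharZero (LaurentSeries (AlgebraicClosure ℚ)) :=
    charZero_of_injective_algebraMap
      (algebraMap (AlgebraicClosure ℚ) (LaurentSeries (AlgebraicClosure ℚ))).injective
  have : CharZero (AlgebraicClosure (LaurentSeries (AlgebraicClosure ℚ))) :=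
    charZero_of_injective_algebraMap
      (algebraMap (LaurentSeries (AlgebraicClosure ℚ))
        (AlgebraicClosure (LaurentSeries (AlgebraicClosure ℚ)))).injective
  refine IsAlgClosed.ringEquiv_of_equiv_of_charZero ?_ ?_
  · rw [Cardinal.mk_complex]
    exact aleph0_lt_continuum
  · rw [← Cardinal.eq, Cardinal.mk_complex, mk_algebraicClosure_laurentSeries]

end Card

section Transfer

variable {K Ω : Type*} [Field K] [Field Ω] (e : K ≃+* Ω) (B : ValuationSubring Ω)

/-- The comparison map `e⁻¹(B) → B`. -/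
noncomputable def comapHom : ↥(B.comap (e : K →+* Ω)) →+* ↥B :=
  ((e : K →+* Ω).comp (B.comap (e : K →+* Ω)).subtype).codRestrict B fun x => x.2

@[simp]
theorem coe_comapHom (a : ↥(B.comap (e : K →+* Ω))) : ((comapHom e B a : B) : Ω) = e (a : K) := rfl

theorem comapHom_surjective : Function.Surjective (comapHom e B) := by
  intro b
  refine ⟨⟨e.symm (b : Ω), ?_⟩, Subtype.ext ?_⟩
  · rw [ValuationSubring.mem_comap]
    simp
  · simp

theorem comapHom_injective : Function.Injective (comapHom e B) := by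
  intro a a' h
  apply Subtype.ext
  apply e.injective
  exact congrArg Subtype.val h

theorem isUnit_comapHom_iff (a : ↥(B.comap (e : K →+* Ω))) : IsUnit (comapHom e B a) ↔ IsUnit a := by
  constructor
  · intro h
    obtain ⟨b, hb⟩ := h.exists_right_inv
    obtain ⟨a', rfl⟩ := comapHom_surjective e B b
    rw [← map_mul, ← map_one (comapHom e B)] at hb
    exact IsUnit.of_mul_eq_one _ (comapHom_injective e B hb)
  · exact fun h => h.map _

theorem isRankOne_comap (h : Red.IsRankOne B) : Red.IsRankOne (B.comap (e : K →+* Ω)) := by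
  intro a ha b hb
  have ha' : ¬ IsUnit (comapHom e B a) := fun hu => ha ((isUnit_comapHom_iff e B a).mp hu)
  have hb' : comapHom e B b ≠ 0 := by
    intro h0
    rw [← map_zero (comapHom e B)] at h0
    exact hb (comapHom_injective e B h0)
  obtain ⟨n, z, hz⟩ := h _ ha' _ hb'
  obtain ⟨z', rfl⟩ := comapHom_surjective e B z
  refine ⟨n, z', comapHom_injective e B ?_⟩
  rw [map_pow, map_mul]
  exact hz

end Transfer


section Main

/-- **(Sp1)** `ℂ` has a rank-one valuation subring with residue field `ℚ̄`. -/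
theorem exists_valuationSubring_complex :
    ∃ (A : ValuationSubring ℂ) (π : A →+* AlgebraicClosure ℚ),
      Function.Surjective π ∧ (∀ a : A, π a = 0 ↔ a ∈ IsLocalRing.maximalIdeal A) ∧
        Red.IsRankOne A := by
  obtain ⟨e⟩ := nonempty_ringEquiv_complex
  obtain ⟨B, hB⟩ := exists_dominates (k := AlgebraicClosure ℚ)
    (Ω := AlgebraicClosure (LaurentSeries (AlgebraicClosure ℚ)))
  refine ⟨B.comap (e : ℂ →+* _), hB.resMap.comp (comapHom e B), ?_, ?_, ?_⟩
  · exact hB.resMap_surjective.comp (comapHom_surjective e B)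
  · intro a
    rw [RingHom.comp_apply, hB.resMap_eq_zero_iff, IsLocalRing.mem_maximalIdeal,
      IsLocalRing.mem_maximalIdeal, mem_nonunits_iff, mem_nonunits_iff, isUnit_comapHom_iff]
  · exact isRankOne_comap e B hB.isRankOne

end Main

end Fermat.Agent.Jac.Spec
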