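import Mathlib
import Fermat.Agent.Jac.Spec.Assembly
import Fermat.Agent.Jac.Spec.ConstRedC
import Fermat.Agent.Jac.Spec.ValuationC

/-!
# Program J (J6'): the specialization statement from Hecke equivariance (J6d) alone

Everything except the Hecke equivariance (J6d) of the reduction map is plugged in:
the valuation ring of `ℂ` (`exists_valuationSubring_complex`), the constant reduction and its
`RedSetup` (`exists_redSetupC`), Riemann packages, genus equality and `Red.mainStatement`
(`exists_specialization_of`).
-/

set_option autoImplicit false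

namespace Fermat.Agent.Jac.Spec

open AlgebraicCurve ModularCurve Fermat.Agent Fermat.Agent.X0

set_option synthInstance.maxHeartbeats 400000

/-- **(J6d)** in the shape consumed by the assembly: for every rank-one valuation subring `A` of
`ℂ` with residue map `π` onto `ℚ̄` and every `RedSetup` `R` over the constant reduction
`D.constRed` of `F_N ⊗ ℂ`, the reduction map `redPic0 R` commutes with the Hecke operators. -/
def HeckeEquivariance (N : ℕ) [NeZero N] : Prop :=
  ∀ (A : ValuationSubring ℂ) (π : A →+* Kb)
    (hπ : ∀ a : A, a ∈ IsLocalRing.maximalIdeal A → π a = 0) (hπs : Function.Surjective π)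
    (_hA : Red.IsRankOne A)
    (D : Val.OrthoData A π (laurentBaseChange ℂ (modularFunctionFieldFull N))
      (modularFunctionFieldBar N) (dedekindPsi N))
    (R : Red.RedSetup (K := ℂ) (F := laurentBaseChange ℂ (modularFunctionFieldFull N))
      (k := Kb) (Ft := modularFunctionFieldBar N) A π),
    D.x = jqModC A → (∀ i, D.m i ∈ Submonoid.closure (Val.jGensA A N)) →
    R.toConstRed = D.constRed hπ hπs →
    ∀ (ℓ : Nat.Primes) (x : Pic0 ℂ (laurentBaseChange ℂ (modularFunctionFieldFull N))),
      redPic0 R ((haveI : NeZero (ℓ : ℕ) := ⟨ℓ.2.ne_zero⟩; heckeOperatorAlong ℂ N ℓ) x) =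
        heckeOperatorBar N ℓ (redPic0 R x)

/-- **The specialization node (J6') from Hecke equivariance (J6d).** -/
theorem specializationStatement_of_heckeEquivariance (N : ℕ) [NeZero N]
    (h : HeckeEquivariance N) : SpecializationStatement N := by
  obtain ⟨A, π, hπs, hker, hA⟩ := exists_valuationSubring_complex
  have hπ : ∀ a : A, a ∈ IsLocalRing.maximalIdeal A → π a = 0 := fun a ha => (hker a).mpr ha
  obtain ⟨D, R, hDx, hDm, hR⟩ := exists_redSetupC N A π hπ hπs
  exact exists_specialization_of N hA R (h A π hπ hπs hA D R hDx hDm hR)

end Fermat.Agent.Jac.Spec
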