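import Mathlib
import Fermat.Agent.Jac.RedHeckeC
import Fermat.Agent.Jac.Spec.Final
import Fermat.Agent.Jac.DictC.HeckeGlue
import Fermat.Agent.Hecke.HeckeInputs

/-!
# Program J (J6d) + (J6'): Hecke equivariance of the reduction map, unconditionally, and the
specialization statement

* `redPic0_eq_redPic0` : the two copies of the reduction map (`Jac.Spec.redPic0`, `Hecke.redPic0`)
  agree;
* `heckeEquivariance N : Jac.Spec.HeckeEquivariance N` (from `Jac.RedHecke.redPic0_heckeOperatorBar`);
* `specializationStatement N : Jac.Spec.SpecializationStatement N` : there is a homomorphism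
  `red : Pic⁰(Fc N) → JZero N`, injective on torsion and commuting with all `T_ℓ`.
-/

set_option autoImplicit false

namespace Fermat.Agent.Jac.Spec

open AlgebraicCurve ModularCurve Fermat.Agent Fermat.Agent.X0

set_option synthInstance.maxHeartbeats 400000

section Generic

variable {K F k Ft : Type*} [Field K] [Field F] [Algebra K F] [Field k] [Field Ft]
  [Algebra k Ft] {A : ValuationSubring K} {π : A →+* k}
  (S : Red.RedSetup (F := F) (Ft := Ft) A π)
  [HasPrincipalDivisors K F] [HasPrincipalDivisors k Ft]

/-- The two copies of the reduction map on `Pic⁰` agree. -/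
theorem redPic0_eq_redPic0 (x : Pic0 K F) : redPic0 S x = Hecke.redPic0 S x := by
  obtain ⟨D, rfl⟩ := Pic0.mk_surjective x
  rw [redPic0_mk, Hecke.redPic0_mk]
  congr 1

end Generic

/-- **(J6d)**, unconditional, in the shape consumed by `Jac/Spec/Final.lean`. -/
theorem heckeEquivariance (N : ℕ) [NeZero N] : HeckeEquivariance N := by
  intro A π hπ hπs _ D R _ _ hR ℓ x
  haveI : NeZero (ℓ : ℕ) := ⟨ℓ.2.ne_zero⟩
  obtain ⟨D', -, -⟩ := exists_orthoDataC (N * ℓ) A π
  haveI : HasPrincipalDivisors ℂ (DictC.Fc N) := Descent.hasPrincipalDivisors_Fc N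
  haveI : HasPrincipalDivisors Kb (Fb N) := (Val.riemannPkg_bar N).principal
  have hRG : RedHecke.IsGauss R.toConstRed := by
    rw [hR]
    exact RedHecke.isGauss_constRed D hπ hπs
  have key := RedHecke.redPic0_heckeOperatorBar N ℓ R (D'.constRed hπ hπs) hRG
    (RedHecke.isGauss_constRed D' hπ hπs) (DictC.heckeInputsAlong_C N ℓ)
    (Hecke.heckeInputsAlong N ℓ) x
  rw [redPic0_eq_redPic0, redPic0_eq_redPic0]
  exact key

/-- **(J6')**: the specialization statement, unconditionally. -/
theorem specializationStatement (N : ℕ) [NeZero N] : SpecializationStatement N :=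
  specializationStatement_of_heckeEquivariance N (heckeEquivariance N)

end Fermat.Agent.Jac.Spec
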