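import Mathlib
import Fermat.Agent.Jac.SepVarFc
import Fermat.Agent.Hecke.HeckeInputs

/-!
# Program J (J6d): the degree of the degeneracy map `β` is invariant under constant field extension

`finrankAlong_heckeBetaBar_bc` : `[F_{Nℓ} L : β(F_N L)] = [F̄_{Nℓ} : β(F̄_N)]` for every algebraically
closed field `L` of characteristic zero (companion of `Descent.finrankAlong_heckeAlphaBar_bc`);
in particular for `L = ℂ` (`finrankAlong_heckeBetaBar_complex`).  No computation of the degree is
needed: `j(q^ℓ) = β(j)` is a transcendental element of `F̄_{Nℓ}` over which `F̄_{Nℓ}` is finite, and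
degrees over a transcendental element are invariant under constant field extension.
-/

set_option autoImplicit false

open AlgebraicCurve Module ModularCurve IntermediateField

namespace Fermat.Agent.Jac.Spec

open Fermat.Agent.X0 Fermat.Agent.Jac.Descent Fermat.Agent

variable (L : Type*) [Field L] [Algebra ℚ L]

/-- `β` commutes with coefficientwise base change. -/
theorem bcHom_heckeBetaBar (ι₀ : Kb →+* L) (N ℓ : ℕ) [NeZero N] [NeZero ℓ] (x : Fb N) :
    bcHom ι₀ (modularFunctionFieldFull (N * ℓ)) (heckeBetaBar Kb N ℓ x) =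
      heckeBetaBar L N ℓ (bcHom ι₀ (modularFunctionFieldFull N) x) := by
  apply Subtype.ext
  rw [coe_bcHom, coe_heckeBetaBar, coe_heckeBetaBar, coe_bcHom, coeffMap_qExpand]

/-- `α` commutes with coefficientwise base change. -/
theorem bcHom_heckeAlphaBar (ι₀ : Kb →+* L) (N ℓ : ℕ) [NeZero N] [NeZero ℓ] (x : Fb N) :
    bcHom ι₀ (modularFunctionFieldFull (N * ℓ)) (heckeAlphaBar Kb N ℓ x) =
      heckeAlphaBar L N ℓ (bcHom ι₀ (modularFunctionFieldFull N) x) := by
  apply Subtype.ext
  rw [coe_bcHom, coe_heckeAlphaBar, coe_heckeAlphaBar, coe_bcHom]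

variable [IsAlgClosed L] (N ℓ : ℕ) [NeZero N] [NeZero ℓ]

/-- The degree of the degeneracy map `β` is the same over `L` and over `ℚ̄`. -/
theorem finrankAlong_heckeBetaBar_bc :
    finrankAlong L (heckeBetaBar L N ℓ) = finrankAlong Kb (heckeBetaBar Kb N ℓ) := by
  obtain ⟨ι₀⟩ := nonempty_ringHom_Kb L
  have h1 := Hecke.Deg.finrank_mul_finrankAlong (heckeBetaBar L N ℓ) (jBC L N)
  have h2 := Hecke.Deg.finrank_mul_finrankAlong (heckeBetaBar Kb N ℓ) (jBar N)
  rw [(isSepVarS_jBC L N).finrank_eq] at h1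
  rw [(Val.jBar_isSepVarS N).finrank_eq] at h2
  have hpos := (Val.jBar_isSepVarS N).pos
  -- `β j` is transcendental and `F̄_{Nℓ}` is finite over `ℚ̄(β j)`
  have htr : Transcendental Kb (heckeBetaBar Kb N ℓ (jBar N)) := by
    have hj := (Val.jBar_isSepVarS N).transcendental
    intro halg
    apply hj
    exact (isAlgebraic_algHom_iff (heckeBetaBar Kb N ℓ) (heckeBetaBar Kb N ℓ).injective).mp halg
  have hfinβ : FiniteAlong Kb (heckeBetaBar Kb N ℓ) := Hecke.finiteAlong_heckeBetaBar N ℓ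
  have hposβ : 0 < finrankAlong Kb (heckeBetaBar Kb N ℓ) := by
    let _ := algebraAlong (heckeBetaBar Kb N ℓ)
    have : Module.Finite (Fb N) (Fb (N * ℓ)) := hfinβ
    exact Module.finrank_pos
  have hfin : FiniteDimensional Kb⟮heckeBetaBar Kb N ℓ (jBar N)⟯ (Fb (N * ℓ)) := by
    apply Module.finite_of_finrank_pos
    rw [← h2]
    exact Nat.mul_pos hpos hposβ
  obtain ⟨-, hrank⟩ := (constExt_bcHom ι₀ (modularFunctionFieldFull (N * ℓ))).finrank_adjoin_simple_eq
    htr
  rw [bcHom_heckeBetaBar, bcHom_jBar] at hrank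
  exact Nat.eq_of_mul_eq_mul_left hpos (h1.trans (hrank.trans h2.symm))

end Fermat.Agent.Jac.Spec

namespace Fermat.Agent.Jac.Spec

open Fermat.Agent.X0 AlgebraicCurve ModularCurve

/-- The degree of `β` over `ℂ` equals the degree over `ℚ̄`. -/
theorem finrankAlong_heckeBetaBar_complex (N ℓ : ℕ) [NeZero N] [NeZero ℓ] :
    finrankAlong ℂ (heckeBetaBar ℂ N ℓ) = finrankAlong Kb (heckeBetaBar Kb N ℓ) :=
  finrankAlong_heckeBetaBar_bc ℂ N ℓ

/-- The degree of `α` over `ℂ` equals the degree over `ℚ̄`. -/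
theorem finrankAlong_heckeAlphaBar_complex (N ℓ : ℕ) [NeZero N] [NeZero ℓ] :
    finrankAlong ℂ (heckeAlphaBar ℂ N ℓ) = finrankAlong Kb (heckeAlphaBar Kb N ℓ) :=
  Fermat.Agent.Jac.Descent.finrankAlong_heckeAlphaBar_bc ℂ N ℓ

end Fermat.Agent.Jac.Spec
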