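import Mathlib

/-!
# Norm commutes with residue (unramified, defectless extension of valued fields)

`E/F` a finite extension of fields, `OF ⊆ F`, `OE ⊆ E` valuation subrings with `OF ⊆ OE`, residue
maps `resF : OF →+* Ft`, `resE : OE →+* Et` (kernels = non-units, `resE` surjective) compatible with
an algebra structure `Ft → Et`.  If `[E : F] ≤ [Et : Ft]` then

* `OE` is free over `OF` on lifts of an `Ft`-basis of `Et` (`repr_mem`, `res_repr`);
* `[E : F] = [Et : Ft]` (`finrank_eq`);
* `Algebra.norm F y ∈ OF` for `y ∈ OE` and `resF (norm y) = norm (resE y)` (`norm_mem`, `res_norm`).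
-/

set_option autoImplicit false

namespace Fermat.Agent.Jac.Spec.NormRes

open Module

variable {F E Ft Et : Type*} [Field F] [Field E] [Algebra F E] [Field Ft] [Field Et]
  [Algebra Ft Et]

/-- In a finite nonzero family of elements of a valued field one has maximal valuation. -/
theorem exists_max_val (OF : ValuationSubring F) {ι : Type*} [Fintype ι] (c : ι → F)
    (hc : ∃ i, c i ≠ 0) : ∃ j, c j ≠ 0 ∧ ∀ i, c i / c j ∈ OF := by
  classical
  obtain ⟨i₀, hi₀⟩ := hc
  obtain ⟨j, -, hj⟩ := Finset.exists_max_image (Finset.univ : Finset ι)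
    (fun i => OF.valuation (c i)) ⟨i₀, Finset.mem_univ _⟩
  have hj0 : c j ≠ 0 := by
    intro h
    have := hj i₀ (Finset.mem_univ _)
    rw [h, map_zero] at this
    exact hi₀ ((map_eq_zero _).mp (le_antisymm this zero_le))
  refine ⟨j, hj0, fun i => ?_⟩
  rw [← OF.valuation_le_one_iff, map_div₀]
  exact div_le_one_of_le₀ (hj i (Finset.mem_univ _)) zero_le

/-- The data of an extension of valued fields with residue maps. -/
structure Data (OF : ValuationSubring F) (OE : ValuationSubring E) (resF : OF →+* Ft)
    (resE : OE →+* Et) : Prop where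
  le : ∀ x ∈ OF, algebraMap F E x ∈ OE
  resF_eq_zero : ∀ x : OF, resF x = 0 ↔ ¬ IsUnit x
  resE_eq_zero : ∀ x : OE, resE x = 0 ↔ ¬ IsUnit x
  resE_surjective : Function.Surjective resE
  compat : ∀ (x : F) (hx : x ∈ OF),
    resE ⟨algebraMap F E x, le x hx⟩ = algebraMap Ft Et (resF ⟨x, hx⟩)

variable {OF : ValuationSubring F} {OE : ValuationSubring E} {resF : OF →+* Ft}
  {resE : OE →+* Et}

namespace Data

variable (h : Data OF OE resF resE)

include h

/-- An element of `F` not in `OF` has inverse in `OF` with zero residue. -/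
theorem resF_inv_of_notMem {x : F} (hx : x ∉ OF) :
    ∃ hx' : x⁻¹ ∈ OF, resF ⟨x⁻¹, hx'⟩ = 0 := by
  have hx' : x⁻¹ ∈ OF := (OF.mem_or_inv_mem x).resolve_left hx
  refine ⟨hx', (h.resF_eq_zero _).mpr fun hu => hx ?_⟩
  obtain ⟨u, hu⟩ := hu
  have h1 : ((u⁻¹ : OFˣ) : OF) * ⟨x⁻¹, hx'⟩ = 1 := by rw [← hu, Units.inv_mul]
  have h2 : (((u⁻¹ : OFˣ) : OF) : F) * x⁻¹ = 1 := by
    have := congrArg (Subtype.val) h1
    simpa using this
  have hx0 : x ≠ 0 := by
    rintro rfl
    simp at h2
  have : x = (((u⁻¹ : OFˣ) : OF) : F) := by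
    field_simp at h2
    exact h2.symm
  rw [this]
  exact Subtype.mem _

/-- Reduction of an integral linear combination. -/
theorem resE_sum {ι : Type*} [Fintype ι] (c : ι → OF) (b : ι → OE) (y : OE)
    (hy : (y : E) = ∑ i, (c i : F) • (b i : E)) :
    resE y = ∑ i, resF (c i) • resE (b i) := by
  classical
  have hy' : y = ∑ i, (⟨algebraMap F E (c i), h.le _ (c i).2⟩ : OE) * b i := by
    apply Subtype.ext
    rw [hy]
    rw [show ((∑ i, (⟨algebraMap F E (c i), h.le _ (c i).2⟩ : OE) * b i : OE) : E) =
      OE.subtype (∑ i, (⟨algebraMap F E (c i), h.le _ (c i).2⟩ : OE) * b i) from rfl, map_sum]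
    refine Finset.sum_congr rfl fun i _ => ?_
    rw [map_mul, Algebra.smul_def]
    rfl
  rw [hy', map_sum]
  refine Finset.sum_congr rfl fun i _ => ?_
  rw [map_mul, h.compat _ (c i).2, Algebra.smul_def]

/-- A normalised relation with non-unit left side is impossible. -/
theorem false_of_normalised {ι : Type*} [Fintype ι] (b : ι → OE)
    (hb : LinearIndependent Ft (fun i => resE (b i))) (c : ι → F) (hc : ∀ i, c i ∈ OF) (j : ι)
    (hj : c j = 1) (y : OE) (hy0 : resE y = 0) (hy : (y : E) = ∑ i, c i • (b i : E)) : False := by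
  classical
  have := h.resE_sum (fun i => ⟨c i, hc i⟩) b y hy
  rw [hy0] at this
  have h0 := Fintype.linearIndependent_iff.mp hb (fun i => resF ⟨c i, hc i⟩) this.symm j
  have h1 : (⟨c j, hc j⟩ : OF) = 1 := Subtype.ext hj
  rw [h1, map_one] at h0
  exact one_ne_zero h0

/-- Lifts of a linearly independent family of the residue field are linearly independent. -/
theorem linearIndependent_lift {ι : Type*} [Fintype ι] (b : ι → OE)
    (hb : LinearIndependent Ft (fun i => resE (b i))) :
    LinearIndependent F (fun i => (b i : E)) := by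
  classical
  rw [Fintype.linearIndependent_iff]
  intro c hc
  by_contra hne
  push Not at hne
  obtain ⟨j, hj0, hj⟩ := exists_max_val OF c hne
  refine h.false_of_normalised b hb (fun i => c i / c j) hj j (div_self hj0) 0 (map_zero _) ?_
  have : ∑ i, (c i / c j) • (b i : E) = (c j)⁻¹ • ∑ i, c i • (b i : E) := by
    rw [Finset.smul_sum]
    refine Finset.sum_congr rfl fun i _ => ?_
    rw [smul_smul, div_eq_inv_mul]
  rw [this, hc, smul_zero]
  rfl

/-- Coordinates of an integral element with respect to lifts of a residue-independent family are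
integral. -/
theorem coeff_mem {ι : Type*} [Fintype ι] (b : ι → OE)
    (hb : LinearIndependent Ft (fun i => resE (b i))) (c : ι → F) (y : OE)
    (hy : (y : E) = ∑ i, c i • (b i : E)) (i : ι) : c i ∈ OF := by
  classical
  by_contra hi
  have hne : ∃ i, c i ≠ 0 := ⟨i, fun h0 => hi (h0 ▸ OF.zero_mem)⟩
  obtain ⟨j, hj0, hj⟩ := exists_max_val OF c hne
  have hjmem : c j ∉ OF := by
    intro hjm
    apply hi
    have : c i = c i / c j * c j := by field_simp
    rw [this]
    exact OF.mul_mem _ _ (hj i) hjm
  obtain ⟨hinv, hres⟩ := h.resF_inv_of_notMem hjmem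
  refine h.false_of_normalised b hb (fun i => c i / c j) hj j (div_self hj0)
    (⟨algebraMap F E (c j)⁻¹, h.le _ hinv⟩ * y) ?_ ?_
  · rw [map_mul, h.compat _ hinv, hres, map_zero, zero_mul]
  · have : ∑ i, (c i / c j) • (b i : E) = (c j)⁻¹ • ∑ i, c i • (b i : E) := by
      rw [Finset.smul_sum]
      refine Finset.sum_congr rfl fun i _ => ?_
      rw [smul_smul, div_eq_inv_mul]
    rw [this, ← hy, Algebra.smul_def]
    rfl

end Data

section Basis

variable [FiniteDimensional F E] (h : Data OF OE resF resE)
  (hdeg : finrank F E ≤ finrank Ft Et)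

include hdeg in
omit h in
theorem finite_residue : Module.Finite Ft Et := by
  have : 0 < finrank Ft Et := lt_of_lt_of_le finrank_pos hdeg
  exact Module.finite_of_finrank_pos this

include h hdeg

/-- Equality of degrees. -/
theorem finrank_eq : finrank F E = finrank Ft Et := by
  classical
  have := finite_residue hdeg
  refine le_antisymm hdeg ?_
  let bt := Module.finBasis Ft Et
  choose b hb using fun i => h.resE_surjective (bt i)
  have hli : LinearIndependent Ft (fun i => resE (b i)) := by
    have : (fun i => resE (b i)) = bt := funext hb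
    rw [this]
    exact bt.linearIndependent
  have := (h.linearIndependent_lift b hli).fintype_card_le_finrank
  simpa using this

/-- **Integral bases**: lifts of a basis of the residue extension form a basis of `E/F` in which
integral elements have integral coordinates, reducing to the coordinates of the residue. -/
theorem exists_basis :
    ∃ (bt : Basis (Fin (finrank Ft Et)) Ft Et) (B : Basis (Fin (finrank Ft Et)) F E),
      (∀ i, ∃ hi : B i ∈ OE, resE ⟨B i, hi⟩ = bt i) ∧
      ∀ (y : OE) (i : Fin (finrank Ft Et)), ∃ hc : B.repr (y : E) i ∈ OF,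
        resF ⟨B.repr (y : E) i, hc⟩ = bt.repr (resE y) i := by
  classical
  have := finite_residue hdeg
  let bt := Module.finBasis Ft Et
  choose b hb using fun i => h.resE_surjective (bt i)
  have hli : LinearIndependent Ft (fun i => resE (b i)) := by
    have : (fun i => resE (b i)) = bt := funext hb
    rw [this]
    exact bt.linearIndependent
  have hliE := h.linearIndependent_lift b hli
  have hcard : Fintype.card (Fin (finrank Ft Et)) = finrank F E := by
    rw [Fintype.card_fin, finrank_eq h hdeg]
  have hne : Nonempty (Fin (finrank Ft Et)) :=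
    Fin.pos_iff_nonempty.mp (lt_of_lt_of_le finrank_pos hdeg)
  let B : Basis (Fin (finrank Ft Et)) F E := basisOfLinearIndependentOfCardEqFinrank hliE hcard
  have hB : ∀ i, B i = (b i : E) := fun i => by
    simp [B]
  refine ⟨bt, B, fun i => ⟨(hB i) ▸ (b i).2, ?_⟩, fun y i => ?_⟩
  · rw [← hb i]
    congr 1
    exact Subtype.ext (hB i)
  · have hy : (y : E) = ∑ i, B.repr (y : E) i • (b i : E) := by
      conv_lhs => rw [← B.sum_repr (y : E)]
      exact Finset.sum_congr rfl fun i _ => by rw [hB i]
    have hmem := h.coeff_mem b hli (fun i => B.repr (y : E) i) y hy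
    refine ⟨hmem i, ?_⟩
    have hred := h.resE_sum (fun i => ⟨B.repr (y : E) i, hmem i⟩) b y hy
    have : resE y = ∑ i, resF ⟨B.repr (y : E) i, hmem i⟩ • bt i := by
      rw [hred]
      exact Finset.sum_congr rfl fun i _ => by rw [hb i]
    rw [this, bt.repr_sum_self]

/-- **Norm commutes with residue.** -/
theorem norm_mem_and_res (y : OE) :
    ∃ hn : Algebra.norm F (y : E) ∈ OF, resF ⟨Algebra.norm F (y : E), hn⟩ =
      Algebra.norm Ft (resE y) := by
  classical
  obtain ⟨bt, B, hB, hrepr⟩ := exists_basis h hdeg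
  -- the integral multiplication matrix
  have hent : ∀ i j, ∃ hc : Algebra.leftMulMatrix B (y : E) i j ∈ OF,
      resF ⟨Algebra.leftMulMatrix B (y : E) i j, hc⟩ =
        Algebra.leftMulMatrix bt (resE y) i j := by
    intro i j
    obtain ⟨hj, hjres⟩ := hB j
    obtain ⟨hc, hcres⟩ := hrepr (y * ⟨B j, hj⟩) i
    rw [Algebra.leftMulMatrix_eq_repr_mul, Algebra.leftMulMatrix_eq_repr_mul]
    refine ⟨hc, ?_⟩
    refine hcres.trans ?_
    rw [map_mul, hjres]
  let M' : Matrix (Fin (finrank Ft Et)) (Fin (finrank Ft Et)) OF :=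
    fun i j => ⟨Algebra.leftMulMatrix B (y : E) i j, (hent i j).1⟩
  have hM : Algebra.leftMulMatrix B (y : E) = M'.map OF.subtype := by
    ext i j
    rfl
  have hMt : Algebra.leftMulMatrix bt (resE y) = M'.map resF := by
    ext i j
    exact ((hent i j).2).symm
  have hnorm : Algebra.norm F (y : E) = OF.subtype M'.det := by
    rw [Algebra.norm_eq_matrix_det B, hM, RingHom.map_det, RingHom.mapMatrix_apply]
  refine ⟨hnorm ▸ (M'.det).2, ?_⟩
  rw [Algebra.norm_eq_matrix_det bt, hMt, ← RingHom.mapMatrix_apply, ← RingHom.map_det]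
  congr 1
  exact Subtype.ext hnorm

theorem norm_mem (y : OE) : Algebra.norm F (y : E) ∈ OF :=
  (norm_mem_and_res h hdeg y).1

theorem res_norm (y : OE) :
    resF ⟨Algebra.norm F (y : E), norm_mem h hdeg y⟩ = Algebra.norm Ft (resE y) :=
  (norm_mem_and_res h hdeg y).2

end Basis

end Fermat.Agent.Jac.Spec.NormRes
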