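import Mathlib
import Fermat.Agent.Jac.CorrComm
import Fermat.Agent.Jac.Spec.NormResidue
import Fermat.Agent.Jac.Spec.RedPic0
import Fermat.Agent.Val.ConstRed

/-!
# Program J (J6d), abstract part: reduction of places commutes with a correspondence

`F/K`, `F'/K` function fields with constant reductions to `Ft/k`, `Ft'/k` along the same
`(A, π)`: a `Red.RedSetup R` on `F` (with place reduction `R.r`) and a `Val.ConstRed C'` on `F'`.
`φ ψ : F →ₐ[K] F'` and `φt ψt : Ft →ₐ[k] Ft'` compatible with the valuation rings and the residue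
maps.  If `[F' : ψ F] ≤ [Ft' : ψt Ft]` and `[F' : φ F] = [Ft' : φt Ft]`, then on divisors of degree
zero

`r_* (ψ_* φ^* D) = ψt_* φt^* (r_* D)`   (`mapDomain_correspondence`).

Proof: both sides are positive additive maps multiplying degrees by the same constant; on the
divisor of a unit `y` of `R.O` they are `div (Nm_ψt (φt (res y)))`, by conservation and
"norm commutes with residue" (`NormRes.norm_mem_and_res`); conclude by the constancy lemma
`Hecke.eq_of_eq_on_principal`.
-/

set_option autoImplicit false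

namespace Fermat.Agent.Jac.Spec

open AlgebraicCurve Fermat.Agent Fermat.Agent.Red

variable {K F F' k Ft Ft' : Type*} [Field K] [Field F] [Field F'] [Algebra K F] [Algebra K F']
  [Field k] [Field Ft] [Field Ft'] [Algebra k Ft] [Algebra k Ft']
  {A : ValuationSubring K} {π : A →+* k}

/-- Compatibility of a homomorphism of function fields with constant reductions. -/
structure ResCompat (R : Red.RedSetup (F := F) (Ft := Ft) A π)
    (C' : Val.ConstRed (F := F') (Ft := Ft') A π) (φ : F →ₐ[K] F') (φt : Ft →ₐ[k] Ft') :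
    Prop where
  mem : ∀ y : F, y ∈ R.O → φ y ∈ C'.O
  res : ∀ (y : F) (hy : y ∈ R.O), C'.res ⟨φ y, mem y hy⟩ = φt (R.res ⟨y, hy⟩)

/-- Push-forward along a map of index sets preserves effectivity. -/
theorem mapDomain_nonneg' {α β : Type*} (r : α → β) (D : α →₀ ℤ) (hD : 0 ≤ D) :
    0 ≤ Finsupp.mapDomain r D := by
  classical
  intro b
  rw [Finsupp.zero_apply, Red.NormalForm.mapDomain_apply_eq_sum]
  refine Finset.sum_nonneg fun a _ => ?_
  split_ifs
  · exact hD a
  · exact le_rfl

section NormStep

variable (R : Red.RedSetup (F := F) (Ft := Ft) A π)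
  (C' : Val.ConstRed (F := F') (Ft := Ft') A π) {ψ : F →ₐ[K] F'} {ψt : Ft →ₐ[k] Ft'}

/-- **Norm commutes with residue along `ψ`.** -/
theorem normAlong_mem_and_res (hψ : ResCompat R C' ψ ψt) (hfin : FiniteAlong K ψ)
    (hdeg : finrankAlong K ψ ≤ finrankAlong k ψt) (z : C'.O) :
    ∃ hn : normAlong ψ (z : F') ∈ R.O,
      R.res ⟨normAlong ψ (z : F'), hn⟩ = normAlong ψt (C'.res z) := by
  let _ := algebraAlong ψ
  let _ := algebraAlong ψt
  have : FiniteDimensional F F' := hfin
  have hData : NormRes.Data R.O C'.O R.res C'.res :=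
    { le := fun x hx => hψ.mem x hx
      resF_eq_zero := R.res_eq_zero_iff
      resE_eq_zero := C'.res_eq_zero_iff
      resE_surjective := C'.res_surjective
      compat := fun x hx => hψ.res x hx }
  exact NormRes.norm_mem_and_res hData hdeg z

end NormStep

section Main

variable [HasPrincipalDivisors K F] [HasPrincipalDivisors K F'] [HasPrincipalDivisors k Ft]
  [HasPrincipalDivisors k Ft']
  (R : Red.RedSetup (F := F) (Ft := Ft) A π) (C' : Val.ConstRed (F := F') (Ft := Ft') A π)
  (φ ψ : F →ₐ[K] F') (φt ψt : Ft →ₐ[k] Ft')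
  (hφi : φ.toRingHom.IsIntegral) (hψi : ψ.toRingHom.IsIntegral)
  (hφti : φt.toRingHom.IsIntegral) (hψti : ψt.toRingHom.IsIntegral)

/-- `r_*` of the divisor of a unit of `R.O` is the divisor of its residue. -/
theorem mapDomain_divOf_of_res_ne_zero (y : R.O) (hy : R.res y ≠ 0) :
    Finsupp.mapDomain R.r (divOf K (y : F)) = divOf k (R.res y) := by
  symm
  apply divOf_eq_of_forall
  intro Q
  exact R.conservation y hy (divOf K (y : F)) (fun P => divOf_apply _ P) Q

include hφi hψi hφti hψti in
/-- The two sides agree on principal divisors. -/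
theorem mapDomain_correspondence_divOf (hφ : ResCompat R C' φ φt) (hψ : ResCompat R C' ψ ψt)
    (hfin : FiniteAlong K ψ) (hN : NormFormulaAlong K ψ hfin)
    (hfint : FiniteAlong k ψt) (hNt : NormFormulaAlong k ψt hfint)
    (hdeg : finrankAlong K ψ ≤ finrankAlong k ψt) {f : F} (hf : f ≠ 0) :
    Finsupp.mapDomain R.r (Divisor.correspondence φ ψ hφi hψi (divOf K f)) =
      Divisor.correspondence φt ψt hφti hψti (Finsupp.mapDomain R.r (divOf K f)) := by
  obtain ⟨c, hc, hmem, hres⟩ := Red.NormalForm.exists_smul_mem R hf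
  rw [← divOf_smul c hc f]
  set y : R.O := ⟨c • f, hmem⟩ with hy
  have hy0 : (y : F) ≠ 0 := Red.NormalForm.coe_ne_zero_of_res_ne_zero R hres
  -- the pull-back
  set z : C'.O := ⟨φ (y : F), hφ.mem _ y.2⟩ with hz
  have hzres : C'.res z = φt (R.res y) := hφ.res _ y.2
  have hzres0 : C'.res z ≠ 0 := by rw [hzres]; exact (map_ne_zero φt).mpr hres
  -- the norm
  obtain ⟨hn, hnres⟩ := normAlong_mem_and_res R C' hψ hfin hdeg z
  have hnres0 : R.res ⟨normAlong ψ (z : F'), hn⟩ ≠ 0 := by
    rw [hnres]
    exact normAlong_ne_zero ψt hfint hzres0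
  have h1 : Divisor.correspondence φ ψ hφi hψi (divOf K (y : F)) =
      divOf K (normAlong ψ (z : F')) := correspondence_divOf φ ψ hφi hψi hfin hN hy0
  have h2 := mapDomain_divOf_of_res_ne_zero R ⟨normAlong ψ (z : F'), hn⟩ hnres0
  have h3 := mapDomain_divOf_of_res_ne_zero R y hres
  show Finsupp.mapDomain R.r (Divisor.correspondence φ ψ hφi hψi (divOf K (y : F))) =
    Divisor.correspondence φt ψt hφti hψti (Finsupp.mapDomain R.r (divOf K (y : F)))
  rw [h1, h2, h3, correspondence_divOf φt ψt hφti hψti hfint hNt hres, hnres, hzres]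

include hφi hψi hφti hψti in
/-- **Reduction of places commutes with the correspondence `ψ_* φ^*` on divisors of degree
zero.** -/
theorem mapDomain_correspondence (hF : RiemannPkg K F) (hdegt : ∀ Q : Place k Ft, Q.deg = 1)
    (hφ : ResCompat R C' φ φt) (hψ : ResCompat R C' ψ ψt)
    (hFI : FundamentalIdentityAlong K φ hφi) (hFIt : FundamentalIdentityAlong k φt hφti)
    (hfin : FiniteAlong K ψ) (hN : NormFormulaAlong K ψ hfin)
    (hfint : FiniteAlong k ψt) (hNt : NormFormulaAlong k ψt hfint)
    (hdegψ : finrankAlong K ψ ≤ finrankAlong k ψt)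
    (hdegφ : finrankAlong K φ = finrankAlong k φt)
    (D : Divisor K F) (hD : Divisor.degree D = 0) :
    Finsupp.mapDomain R.r (Divisor.correspondence φ ψ hφi hψi D) =
      Divisor.correspondence φt ψt hφti hψti (Finsupp.mapDomain R.r D) := by
  have key := Hecke.eq_of_eq_on_principal hF hdegt
    ((redDiv R).comp (Divisor.correspondence φ ψ hφi hψi))
    ((Divisor.correspondence φt ψt hφti hψti).comp (redDiv R))
    (fun D hD => ?_) (fun D hD => ?_) (finrankAlong K φ : ℤ) (fun D => ?_) (fun D => ?_)
    (fun f hf => ?_) D hD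
  · simpa using key
  · rw [AddMonoidHom.comp_apply, redDiv_apply]
    exact mapDomain_nonneg' R.r _ (correspondence_nonneg φ ψ hφi hψi hD)
  · rw [AddMonoidHom.comp_apply, redDiv_apply]
    exact correspondence_nonneg φt ψt hφti hψti (mapDomain_nonneg' R.r _ hD)
  · rw [AddMonoidHom.comp_apply, redDiv_apply, degree_mapDomain,
      Divisor.degree_correspondence φ ψ hφi hψi hFI]
  · rw [AddMonoidHom.comp_apply, redDiv_apply,
      Divisor.degree_correspondence φt ψt hφti hψti hFIt, degree_mapDomain, hdegφ]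
  · rw [AddMonoidHom.comp_apply, AddMonoidHom.comp_apply, redDiv_apply, redDiv_apply]
    exact mapDomain_correspondence_divOf R C' φ ψ φt ψt hφi hψi hφti hψti hφ hψ hfin hN hfint hNt
      hdegψ hf

end Main

end Fermat.Agent.Jac.Spec
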