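import Mathlib
import Fermat.Agent.Jac.Spec.CorrRed
import Fermat.Agent.Jac.Spec.BetaDegree
import Fermat.Agent.Jac.DictC.HeckeGlue
import Fermat.Agent.Jac.DictC.RiemannPkgC
import Fermat.Agent.Val.RiemannPkgBar
import Fermat.Agent.Hecke.HeckeInputs
import Fermat.Prelude.Def_ModularCurve_HeckeModule

/-!
# Program J (J6d), modular part: Hecke equivariance of `redPic0 R` from residue compatibility of
the degeneracy maps

`heckeEquivariance_of_resCompat` : let `R` be a `Red.RedSetup` for `(ℂ, A, π, F_N ⊗ ℂ, F̄_N)`.  If for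
every prime `ℓ` there is a constant reduction `C'` of `F_{Nℓ} ⊗ ℂ` (same `A`, `π`, residue field
`F̄_{Nℓ}`) such that the degeneracy maps `α` (inclusion) and `β` (`q ↦ q^ℓ`) are compatible with the
valuation rings and the residue maps (`ResCompat`), then
`redPic0 R ∘ heckeOperatorAlong ℂ N ℓ = heckeOperatorBar N ℓ ∘ redPic0 R`.
-/

set_option autoImplicit false

namespace Fermat.Agent.Jac.Spec

open AlgebraicCurve ModularCurve Fermat.Agent Fermat.Agent.X0

set_option synthInstance.maxHeartbeats 400000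
set_option maxHeartbeats 1000000

variable (N : ℕ) [NeZero N] {A : ValuationSubring ℂ} {π : A →+* Kb}

/-- Divisor-level form: reduction commutes with the Hecke correspondence on degree-zero divisors. -/
theorem mapDomain_heckeDivBar (ℓ : ℕ) [NeZero ℓ]
    (R : Red.RedSetup (K := ℂ) (F := laurentBaseChange ℂ (modularFunctionFieldFull N))
      (k := Kb) (Ft := modularFunctionFieldBar N) A π)
    (C' : Val.ConstRed (K := ℂ) (F := laurentBaseChange ℂ (modularFunctionFieldFull (N * ℓ)))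
      (k := Kb) (Ft := modularFunctionFieldBar (N * ℓ)) A π)
    (hα' : ResCompat R C' (heckeAlphaBar ℂ N ℓ) (heckeAlphaBar Kb N ℓ))
    (hβ' : ResCompat R C' (heckeBetaBar ℂ N ℓ) (heckeBetaBar Kb N ℓ))
    (hα : HeckeAlphaBarIntegral ℂ N ℓ) (hβ : HeckeBetaBarIntegral ℂ N ℓ)
    [HasPrincipalDivisors ℂ (laurentBaseChange ℂ (modularFunctionFieldFull (N * ℓ)))]
    (hFI : FundamentalIdentityAlong ℂ (heckeBetaBar ℂ N ℓ) hβ)
    (hfin : FiniteAlong ℂ (heckeAlphaBar ℂ N ℓ))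
    (hN : NormFormulaAlong ℂ (heckeAlphaBar ℂ N ℓ) hfin)
    (D : Divisor ℂ (laurentBaseChange ℂ (modularFunctionFieldFull N)))
    (hD : Divisor.degree D = 0) :
    Finsupp.mapDomain R.r (heckeDivBar hα hβ D) =
      heckeDivBar (Hecke.heckeAlphaBarIntegral N ℓ) (Hecke.heckeBetaBarIntegral N ℓ)
        (Finsupp.mapDomain R.r D) := by
  have hP := DictC.hasPrincipalDivisors_C N
  exact mapDomain_correspondence R C' (heckeBetaBar ℂ N ℓ) (heckeAlphaBar ℂ N ℓ)
    (heckeBetaBar Kb N ℓ) (heckeAlphaBar Kb N ℓ) hβ hα (Hecke.heckeBetaBarIntegral N ℓ)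
    (Hecke.heckeAlphaBarIntegral N ℓ) (DictC.riemannPkg_C N) (Val.riemannPkg_bar N).deg_one
    hβ' hα' hFI (Hecke.fundamentalIdentityAlong_beta N ℓ) hfin hN
    (Hecke.finiteAlong_heckeAlphaBar N ℓ) (Hecke.normFormulaAlong_alpha N ℓ)
    (finrankAlong_heckeAlphaBar_complex N ℓ).le (finrankAlong_heckeBetaBar_complex N ℓ) D hD

/-- **Hecke equivariance of the reduction map from residue compatibility of `α` and `β`.** -/
theorem heckeEquivariance_of_resCompat
    (R : Red.RedSetup (K := ℂ) (F := laurentBaseChange ℂ (modularFunctionFieldFull N))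
      (k := Kb) (Ft := modularFunctionFieldBar N) A π)
    (hcompat : ∀ ℓ : Nat.Primes,
      ∃ C' : Val.ConstRed (K := ℂ) (F := laurentBaseChange ℂ (modularFunctionFieldFull (N * ℓ)))
        (k := Kb) (Ft := modularFunctionFieldBar (N * ℓ)) A π,
        (haveI : NeZero (ℓ : ℕ) := ⟨ℓ.2.ne_zero⟩;
          ResCompat R C' (heckeAlphaBar ℂ N ℓ) (heckeAlphaBar Kb N ℓ)) ∧
        (haveI : NeZero (ℓ : ℕ) := ⟨ℓ.2.ne_zero⟩;
          ResCompat R C' (heckeBetaBar ℂ N ℓ) (heckeBetaBar Kb N ℓ)))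
    (ℓ : Nat.Primes) (x : Pic0 ℂ (laurentBaseChange ℂ (modularFunctionFieldFull N))) :
    redPic0 R ((haveI : NeZero (ℓ : ℕ) := ⟨ℓ.2.ne_zero⟩; heckeOperatorAlong ℂ N ℓ) x) =
      heckeOperatorBar N ℓ (redPic0 R x) := by
  have : NeZero (ℓ : ℕ) := ⟨ℓ.2.ne_zero⟩
  obtain ⟨C', hα', hβ'⟩ := hcompat ℓ
  obtain ⟨hα, hβ, hP, hfin, hFI, hN⟩ := DictC.heckeInputsAlong_C N ℓ
  have := hP
  obtain ⟨D, rfl⟩ := Pic0.mk_surjective x
  show redPic0 R (heckeOperatorAlong ℂ N ℓ (Pic0.mk D)) =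
    heckeOperatorAlong Kb N ℓ (redPic0 R (Pic0.mk D))
  rw [heckeOperatorAlong_eq hα hβ hFI hfin hN, Hecke.heckeOperatorAlong_eq_heckePic0Bar N ℓ,
    redPic0_mk]
  show redPic0 R (Pic0.mk _) = Pic0.mk _
  rw [redPic0_mk]
  congr 1
  apply Subtype.ext
  exact mapDomain_heckeDivBar N ℓ R C' hα' hβ' hα hβ hFI hfin hN D D.2

end Fermat.Agent.Jac.Spec
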