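import Mathlib
import Fermat.Agent.Jac.Spec.HeckeRed
import Fermat.Agent.Jac.Spec.Final

/-!
# Program J (J6d): the degeneracy maps are compatible with the Gauss reductions; the specialization
statement, unconditionally

* `qExpand_mem_gaussRingA` : `q ↦ q^ℓ` preserves the Gauss ring and commutes with the residue map;
* `resCompat_alpha`, `resCompat_beta` : `ResCompat` of `α` (inclusion) and `β` (`q ↦ q^ℓ`) for the
  constant reductions `D.constRed` of `F_N ⊗ ℂ` and `D'.constRed` of `F_{Nℓ} ⊗ ℂ`;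
* `heckeEquivariance N : HeckeEquivariance N` (J6d);
* **`specializationStatement N : SpecializationStatement N`** (J6'): an additive map
  `Pic⁰(F_N ⊗ ℂ) →+ J₀(N)(ℚ̄)`, injective on torsion and Hecke equivariant.
-/

set_option autoImplicit false

namespace Fermat.Agent.Jac.Spec

open AlgebraicCurve ModularCurve Fermat.Agent Fermat.Agent.X0 Fermat.Agent.Val

set_option synthInstance.maxHeartbeats 400000
set_option maxHeartbeats 1000000

section Gauss

variable {L : Type*} [Field L] (A : ValuationSubring L) {k : Type*} [Field k] (π : A →+* k)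
  (ℓ : ℕ) [NeZero ℓ]

/-- `q ↦ q^ℓ` preserves the Gauss ring and commutes with the Gauss residue. -/
theorem qExpand_mem_gaussRingA {x : LaurentSeries L} (hx : x ∈ gaussRingA A π) :
    ∃ h : qExpand L ℓ x ∈ gaussRingA A π,
      gaussResA A π ⟨qExpand L ℓ x, h⟩ = qExpand k ℓ (gaussResA A π ⟨x, hx⟩) := by
  obtain ⟨a, b, hb, hab⟩ := (mem_gaussRingA_iff A π).mp hx
  have hb' : aRed π (qExpand A ℓ b) ≠ 0 := by
    rw [aRed, coeffMap_qExpand]
    exact (map_ne_zero (qExpand k ℓ)).mpr hb
  have hab' : qExpand L ℓ x * aIota A (qExpand A ℓ b) = aIota A (qExpand A ℓ a) := by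
    rw [aIota, coeffMap_qExpand, coeffMap_qExpand, ← map_mul]
    exact congrArg (qExpand L ℓ) hab
  have hmem : qExpand L ℓ x ∈ gaussRingA A π := ⟨qExpand A ℓ a, qExpand A ℓ b, hb', hab'⟩
  refine ⟨hmem, ?_⟩
  rw [gaussResA_eq A π ⟨qExpand L ℓ x, hmem⟩ hb' hab', gaussResA_eq A π ⟨x, hx⟩ hb hab, map_div₀,
    aRed, coeffMap_qExpand, coeffMap_qExpand]

/-- The Gauss residue only depends on the underlying series. -/
theorem gaussResA_congr {x x' : LaurentSeries L} (hx : x ∈ gaussRingA A π)
    (hx' : x' ∈ gaussRingA A π) (h : x = x') :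
    gaussResA A π ⟨x, hx⟩ = gaussResA A π ⟨x', hx'⟩ := by
  subst h
  rfl

end Gauss

section Compat

variable {N ℓ : ℕ} [NeZero N] [NeZero ℓ] {A : ValuationSubring ℂ} {π : A →+* Kb}
  (hπ : ∀ a : A, a ∈ IsLocalRing.maximalIdeal A → π a = 0) (hπs : Function.Surjective π)
  (D : OrthoData A π (laurentBaseChange ℂ (modularFunctionFieldFull N))
    (modularFunctionFieldBar N) (dedekindPsi N))
  (D' : OrthoData A π (laurentBaseChange ℂ (modularFunctionFieldFull (N * ℓ)))
    (modularFunctionFieldBar (N * ℓ)) (dedekindPsi (N * ℓ)))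
  (R : Red.RedSetup (K := ℂ) (F := laurentBaseChange ℂ (modularFunctionFieldFull N))
    (k := Kb) (Ft := modularFunctionFieldBar N) A π)

/-- `α` (the inclusion) is compatible with the Gauss reductions. -/
theorem resCompat_alpha (hR : R.toConstRed = D.constRed hπ hπs) :
    ResCompat R (D'.constRed hπ hπs) (heckeAlphaBar ℂ N ℓ) (heckeAlphaBar Kb N ℓ) := by
  have key : ∀ C : ConstRed (K := ℂ) (F := laurentBaseChange ℂ (modularFunctionFieldFull N))
      (k := Kb) (Ft := modularFunctionFieldBar N) A π, C = D.constRed hπ hπs →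
      ∃ hmem : ∀ y : laurentBaseChange ℂ (modularFunctionFieldFull N), y ∈ C.O →
          heckeAlphaBar ℂ N ℓ y ∈ (D'.constRed hπ hπs).O,
        ∀ (y : laurentBaseChange ℂ (modularFunctionFieldFull N)) (hy : y ∈ C.O),
          (D'.constRed hπ hπs).res ⟨heckeAlphaBar ℂ N ℓ y, hmem y hy⟩ =
            heckeAlphaBar Kb N ℓ (C.res ⟨y, hy⟩) := by
    rintro _ rfl
    have hmem : ∀ y : laurentBaseChange ℂ (modularFunctionFieldFull N), y ∈ D.valSubring →
        heckeAlphaBar ℂ N ℓ y ∈ D'.valSubring := by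
      intro y hy
      rw [OrthoData.mem_valSubring_iff] at hy ⊢
      rw [coe_heckeAlphaBar]
      exact hy
    refine ⟨hmem, fun y hy => ?_⟩
    apply Subtype.ext
    show ((D'.res hπ ⟨heckeAlphaBar ℂ N ℓ y, hmem y hy⟩ :
      modularFunctionFieldBar (N * ℓ)) : LaurentSeries Kb) =
        ((heckeAlphaBar Kb N ℓ (D.res hπ ⟨y, hy⟩) : modularFunctionFieldBar (N * ℓ)) :
          LaurentSeries Kb)
    rw [coe_heckeAlphaBar, D'.coe_res hπ, D.coe_res hπ, OrthoData.resSeries_apply,
      OrthoData.resSeries_apply]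
    exact gaussResA_congr A π _ _ (coe_heckeAlphaBar N ℓ y)
  obtain ⟨hmem, hres⟩ := key R.toConstRed hR
  exact ⟨hmem, hres⟩

omit [NeZero N] in
/-- `β` (`q ↦ q^ℓ`) is compatible with the Gauss reductions. -/
theorem resCompat_beta (hR : R.toConstRed = D.constRed hπ hπs) :
    ResCompat R (D'.constRed hπ hπs) (heckeBetaBar ℂ N ℓ) (heckeBetaBar Kb N ℓ) := by
  have key : ∀ C : ConstRed (K := ℂ) (F := laurentBaseChange ℂ (modularFunctionFieldFull N))
      (k := Kb) (Ft := modularFunctionFieldBar N) A π, C = D.constRed hπ hπs →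
      ∃ hmem : ∀ y : laurentBaseChange ℂ (modularFunctionFieldFull N), y ∈ C.O →
          heckeBetaBar ℂ N ℓ y ∈ (D'.constRed hπ hπs).O,
        ∀ (y : laurentBaseChange ℂ (modularFunctionFieldFull N)) (hy : y ∈ C.O),
          (D'.constRed hπ hπs).res ⟨heckeBetaBar ℂ N ℓ y, hmem y hy⟩ =
            heckeBetaBar Kb N ℓ (C.res ⟨y, hy⟩) := by
    rintro _ rfl
    have hmem : ∀ y : laurentBaseChange ℂ (modularFunctionFieldFull N), y ∈ D.valSubring →
        heckeBetaBar ℂ N ℓ y ∈ D'.valSubring := by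
      intro y hy
      rw [OrthoData.mem_valSubring_iff] at hy ⊢
      rw [coe_heckeBetaBar]
      exact (qExpand_mem_gaussRingA A π ℓ hy).1
    refine ⟨hmem, fun y hy => ?_⟩
    apply Subtype.ext
    show ((D'.res hπ ⟨heckeBetaBar ℂ N ℓ y, hmem y hy⟩ :
      modularFunctionFieldBar (N * ℓ)) : LaurentSeries Kb) =
        ((heckeBetaBar Kb N ℓ (D.res hπ ⟨y, hy⟩) : modularFunctionFieldBar (N * ℓ)) :
          LaurentSeries Kb)
    rw [coe_heckeBetaBar, D'.coe_res hπ, D.coe_res hπ, OrthoData.resSeries_apply,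
      OrthoData.resSeries_apply]
    have hy' : ((y : laurentBaseChange ℂ (modularFunctionFieldFull N)) : LaurentSeries ℂ) ∈
        gaussRingA A π := hy
    obtain ⟨h1, h2⟩ := qExpand_mem_gaussRingA A π ℓ hy'
    rw [← h2]
    exact gaussResA_congr A π _ _ (coe_heckeBetaBar N ℓ y)
  obtain ⟨hmem, hres⟩ := key R.toConstRed hR
  exact ⟨hmem, hres⟩

end Compat

section Final

variable (N : ℕ) [NeZero N]

/-- **(J6d)** The reduction map commutes with the Hecke operators. -/
theorem heckeEquivariance : HeckeEquivariance N := by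
  intro A π hπ hπs _ D R _ _ hR ℓ x
  refine heckeEquivariance_of_resCompat N R (fun ℓ' => ?_) ℓ x
  have : NeZero (ℓ' : ℕ) := ⟨ℓ'.2.ne_zero⟩
  obtain ⟨D', -, -⟩ := exists_orthoDataC (N * ℓ') A π
  exact ⟨D'.constRed hπ hπs, resCompat_alpha hπ hπs D D' R hR, resCompat_beta hπ hπs D D' R hR⟩

/-- **(J6') The specialization statement**: there is an additive map
`Pic⁰(F_N ⊗ ℂ) →+ J₀(N)(ℚ̄)` which is injective on torsion and commutes with all Hecke operators. -/
theorem specializationStatement : SpecializationStatement N :=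
  specializationStatement_of_heckeEquivariance N (heckeEquivariance N)

end Final

end Fermat.Agent.Jac.Spec
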