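/-
Program J, node (J6a) supplement (helper5): the rank-one valuation subring of `ℂ` with residue
field `ℚ̄` can be chosen so that the residue map restricts to the identity on `ℚ̄`, for any given
embedding `ι : ℚ̄ →+* ℂ`.
-/
import Mathlib
import Fermat.Agent.Jac.Spec.ValuationC

set_option autoImplicit false

namespace Fermat.Agent.Jac.Spec

open Polynomial

/-- Every ring endomorphism of `ℚ̄` is bijective. -/
theorem bijective_ringHom_algebraicClosure_rat
    (σ : AlgebraicClosure ℚ →+* AlgebraicClosure ℚ) : Function.Bijective σ := by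
  let _ : Algebra ℚ (AlgebraicClosure ℚ) := AlgebraicClosure.instAlgebra ℚ
  have : Algebra.IsAlgebraic ℚ (AlgebraicClosure ℚ) := AlgebraicClosure.isAlgebraic ℚ
  exact Algebra.IsAlgebraic.algHom_bijective σ.toRatAlgHom

section

variable {A : ValuationSubring ℂ} {π : A →+* AlgebraicClosure ℚ}

/-- Nonzero rational numbers are units of `A`. -/
theorem ratCast_mem (hker : ∀ a : A, π a = 0 ↔ a ∈ IsLocalRing.maximalIdeal A) (r : ℚ) :
    (r : ℂ) ∈ A := by
  have hint : ∀ n : ℤ, ((n : ℂ)) ∈ A := fun n => intCast_mem A n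
  have hd : ((r.den : ℤ) : ℂ) ∈ A := hint r.den
  have hdu : IsUnit (⟨((r.den : ℤ) : ℂ), hd⟩ : A) := by
    by_contra hnu
    have hm : (⟨((r.den : ℤ) : ℂ), hd⟩ : A) ∈ IsLocalRing.maximalIdeal A := by
      rwa [IsLocalRing.mem_maximalIdeal, mem_nonunits_iff]
    have h0 := (hker _).mpr hm
    have h1 : (⟨((r.den : ℤ) : ℂ), hd⟩ : A) = ((r.den : ℤ) : A) := Subtype.ext (by simp)
    rw [h1, map_intCast] at h0
    have : ((r.den : ℤ) : AlgebraicClosure ℚ) ≠ 0 := by
      exact_mod_cast r.den_ne_zero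
    exact this h0
  obtain ⟨u, hu⟩ := hdu.exists_right_inv
  have hu' : ((r.den : ℤ) : ℂ) * (u : ℂ) = 1 := congrArg Subtype.val hu
  have hinv : (u : ℂ) = ((r.den : ℤ) : ℂ)⁻¹ := eq_inv_of_mul_eq_one_right hu'
  have hr : (r : ℂ) = ((r.num : ℤ) : ℂ) * (u : ℂ) := by
    rw [hinv]
    push_cast
    rw [← div_eq_mul_inv]
    exact (Rat.cast_def r)
  rw [hr]
  exact A.mul_mem _ _ (hint r.num) u.2

/-- Nonzero rational numbers are not in the maximal ideal. -/
theorem ratCast_not_mem_maximalIdeal (hker : ∀ a : A, π a = 0 ↔ a ∈ IsLocalRing.maximalIdeal A)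
    {r : ℚ} (hr : r ≠ 0) :
    (⟨(r : ℂ), ratCast_mem hker r⟩ : A) ∉ IsLocalRing.maximalIdeal A := by
  intro hm
  have hinv : (⟨((r⁻¹ : ℚ) : ℂ), ratCast_mem hker r⁻¹⟩ : A) * ⟨(r : ℂ), ratCast_mem hker r⟩ = 1 := by
    apply Subtype.ext
    push_cast
    exact inv_mul_cancel₀ (by exact_mod_cast hr)
  have := Ideal.mul_mem_left _ (⟨((r⁻¹ : ℚ) : ℂ), ratCast_mem hker r⁻¹⟩ : A) hm
  rw [hinv] at this
  exact (Ideal.ne_top_iff_one _).mp (IsLocalRing.maximalIdeal.isMaximal A).ne_top this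

/-- Algebraic numbers lie in `A`. -/
theorem algebraic_mem (hker : ∀ a : A, π a = 0 ↔ a ∈ IsLocalRing.maximalIdeal A)
    (ι : AlgebraicClosure ℚ →+* ℂ) (x : AlgebraicClosure ℚ) : ι x ∈ A := by
  by_contra hx
  have hx0 : x ≠ 0 := by
    rintro rfl
    rw [map_zero] at hx
    exact hx A.zero_mem
  -- `z = (ι x)⁻¹` is a nonunit of `A`
  have hzA : (ι x)⁻¹ ∈ A := (A.mem_or_inv_mem (ι x)).resolve_left hx
  have hzm : (⟨(ι x)⁻¹, hzA⟩ : A) ∈ IsLocalRing.maximalIdeal A := by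
    rw [IsLocalRing.mem_maximalIdeal, mem_nonunits_iff]
    intro hu
    obtain ⟨u, hu⟩ := hu.exists_right_inv
    have hu' : (ι x)⁻¹ * (u : ℂ) = 1 := congrArg Subtype.val hu
    have : (u : ℂ) = ι x := by
      have h1 : ι x ≠ 0 := by rwa [Ne, map_eq_zero]
      field_simp at hu'
      exact hu'
    exact hx (this ▸ u.2)
  -- minimal polynomial of `x⁻¹` over `ℚ`
  let _ : Algebra ℚ (AlgebraicClosure ℚ) := AlgebraicClosure.instAlgebra ℚ
  have halg : Algebra.IsAlgebraic ℚ (AlgebraicClosure ℚ) := AlgebraicClosure.isAlgebraic ℚ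
  have hint : IsIntegral ℚ (x⁻¹) := (halg.isAlgebraic x⁻¹).isIntegral
  set p := minpoly ℚ (x⁻¹) with hp
  have hp0 : p.coeff 0 ≠ 0 := minpoly.coeff_zero_ne_zero hint (inv_ne_zero hx0)
  have hroot : aeval (x⁻¹) p = 0 := minpoly.aeval ℚ _
  -- transport to `ℂ`
  have hroot' : ∑ i ∈ Finset.range (p.natDegree + 1), ((p.coeff i : ℚ) : ℂ) * ((ι x)⁻¹) ^ i = 0 := by
    have h1 := congrArg ι hroot
    rw [map_zero, aeval_eq_sum_range, map_sum] at h1
    rw [← h1]
    refine Finset.sum_congr rfl fun i _ => ?_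
    rw [Algebra.smul_def, map_mul, map_pow, map_inv₀]
    congr 1
    exact (map_ratCast (ι.comp (algebraMap ℚ (AlgebraicClosure ℚ))) (p.coeff i)).symm
  -- split off the constant term
  rw [Finset.sum_range_succ', pow_zero, mul_one] at hroot'
  have hrest : ∑ i ∈ Finset.range p.natDegree, ((p.coeff (i + 1) : ℚ) : ℂ) * ((ι x)⁻¹) ^ (i + 1) =
      (ι x)⁻¹ * ∑ i ∈ Finset.range p.natDegree, ((p.coeff (i + 1) : ℚ) : ℂ) * ((ι x)⁻¹) ^ i := by
    rw [Finset.mul_sum]
    refine Finset.sum_congr rfl fun i _ => ?_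
    rw [pow_succ]
    ring
  rw [hrest] at hroot'
  have hsumA : ∑ i ∈ Finset.range p.natDegree, ((p.coeff (i + 1) : ℚ) : ℂ) * ((ι x)⁻¹) ^ i ∈ A :=
    sum_mem fun i _ => A.mul_mem _ _ (ratCast_mem hker _) (pow_mem hzA i)
  have hc : (⟨((p.coeff 0 : ℚ) : ℂ), ratCast_mem hker _⟩ : A) ∈ IsLocalRing.maximalIdeal A := by
    have hEq : (⟨((p.coeff 0 : ℚ) : ℂ), ratCast_mem hker _⟩ : A) =
        -(⟨(ι x)⁻¹, hzA⟩ * ⟨_, hsumA⟩) := by
      apply Subtype.ext
      push_cast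
      linear_combination hroot'
    rw [hEq]
    exact neg_mem (Ideal.mul_mem_right _ _ hzm)
  exact ratCast_not_mem_maximalIdeal hker hp0 hc

end

/-- **(J6a), strong form.** For every embedding `ι : ℚ̄ →+* ℂ` there is a rank-one valuation
subring `A` of `ℂ` containing `ι ℚ̄`, with a residue map `π : A →+* ℚ̄` (surjective, kernel the
maximal ideal) which restricts to the identity on `ℚ̄`. -/
theorem exists_valuationSubring_complex_of_embedding (ι : AlgebraicClosure ℚ →+* ℂ) :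
    ∃ (A : ValuationSubring ℂ) (π : A →+* AlgebraicClosure ℚ),
      Function.Surjective π ∧ (∀ a : A, π a = 0 ↔ a ∈ IsLocalRing.maximalIdeal A) ∧
        Red.IsRankOne A ∧ ∀ x : AlgebraicClosure ℚ, ∃ h : ι x ∈ A, π ⟨ι x, h⟩ = x := by
  obtain ⟨A, π, hsurj, hker, hrk⟩ := exists_valuationSubring_complex
  set ιA : AlgebraicClosure ℚ →+* A := ι.codRestrict A (algebraic_mem hker ι) with hιA
  set σ : AlgebraicClosure ℚ →+* AlgebraicClosure ℚ := π.comp ιA with hσ
  have hbij := bijective_ringHom_algebraicClosure_rat σ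
  set τ : AlgebraicClosure ℚ ≃+* AlgebraicClosure ℚ := RingEquiv.ofBijective σ hbij with hτ
  refine ⟨A, (τ.symm : AlgebraicClosure ℚ →+* AlgebraicClosure ℚ).comp π, ?_, ?_, hrk, ?_⟩
  · exact τ.symm.surjective.comp hsurj
  · intro a
    rw [RingHom.comp_apply, ← hker a]
    exact map_eq_zero_iff _ τ.symm.injective
  · intro x
    refine ⟨algebraic_mem hker ι x, ?_⟩
    rw [RingHom.comp_apply]
    have : π ⟨ι x, algebraic_mem hker ι x⟩ = τ x := rfl
    rw [this]
    exact τ.symm_apply_apply x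

end Fermat.Agent.Jac.Spec
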